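import Mathlib
import Fermat.Prelude.Def_ModularCurve_HeckeOperatorTotal
import Fermat.Agent.S28.Step.OfDefs
import Fermat.Agent.S28.ModPolyPrime
import Fermat.Agent.S28.PrimeCaseForm
import Fermat.Agent.S28.PsiRec
import Fermat.Agent.S18.C.Forms
import Fermat.Agent.S18.B.Basic

/-!
# PROJECT I (S37), slice I-2D: the degrees of the two degeneracy maps `α`, `β`

For a prime `ℓ ∤ N` and `L = ℚ̄`:

* `finrankAlong_alpha : finrankAlong ℚ̄ (heckeAlphaBar ℚ̄ N ℓ) = ℓ + 1`,
* `finrankAlong_beta  : finrankAlong ℚ̄ (heckeBetaBar ℚ̄ N ℓ) = ℓ + 1`.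

Both are read off from `[F_M : ℚ̄(j)] = ψ(M)` (`S24.Degree`, `S18/C/Forms`) for `M = N, N ℓ` and the
prime-level modular equation (`S28/Step`): `[ℚ̄(j, j_ℓ) : ℚ̄(j)] = ℓ + 1 = [ℚ̄(j, j_ℓ) : ℚ̄(j_ℓ)]`, so that
`[E : ℚ̄(j)] = [E : ℚ̄(j_ℓ)]` for every field `E ⊇ ℚ̄(j, j_ℓ)`.

The statements inside `ℚ̄((q))` (relative degrees of intermediate fields) are exported too:
`relfinrank_bar`, `relfinrank_map_bar`, `finrank_extendScalars_bar`, `finrank_extendScalars_map_bar`.
-/

set_option autoImplicit false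
set_option linter.unusedSectionVars false
set_option linter.style.haveILetI false

noncomputable section

namespace Fermat.Agent.S37.ES.DegreeBeta

open ModularCurve IntermediateField AlgebraicCurve Fermat.Agent.S28.StepDeg

/-! ### Abstract part: intermediate fields of `k((q))` -/

section Abstract

variable {k : Type*} [Field k] {p : ℕ} [NeZero p] [NeZero (p * p)] (PL : PrimeLevel k p)

include PL in
/-- `[E : k(J)] = [E : k(J(q^p))]` for every field `E ⊇ k(J, J(q^p))` (cardinal form). -/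
theorem relrank_kJ_eq_relrank_kJm (hp : 2 ≤ p) (E : IntermediateField k (LaurentSeries k))
    (hJ : kJ k ≤ E) (hJp : kJm k p ≤ E) :
    IntermediateField.relrank (kJ k) E = IntermediateField.relrank (kJm k p) E := by
  have hM_E : kJ k ⊔ kJm k p ≤ E := sup_le hJ hJp
  have hM_E' : kJm k p ⊔ kJ k ≤ E := sup_le hJp hJ
  have r1 := IntermediateField.relrank_mul_relrank (le_sup_left : kJ k ≤ kJ k ⊔ kJm k p) hM_E
  have r2 := IntermediateField.relrank_mul_relrank (le_sup_left : kJm k p ≤ kJm k p ⊔ kJ k) hM_E'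
  rw [PL.relrank_kJ_sup hp] at r1
  rw [PL.relrank_kJm_sup hp, sup_comm] at r2
  rw [← r1, ← r2]

include PL in
/-- The tower through `V_p E_N`: `[E_N : k(J)] · [E : V_p E_N] = [E : k(J)]`. -/
theorem relrank_mul_relrank_map (hp : 2 ≤ p) (EN E : IntermediateField k (LaurentSeries k))
    (hJN : kJ k ≤ EN) (hJ : kJ k ≤ E) (hmap : EN.map (qExpandAlgHomC k p) ≤ E) :
    IntermediateField.relrank (kJ k) EN *
        IntermediateField.relrank (EN.map (qExpandAlgHomC k p)) E =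
      IntermediateField.relrank (kJ k) E := by
  have hJp_map : kJm k p ≤ EN.map (qExpandAlgHomC k p) := by
    rw [← kJ_map]
    exact IntermediateField.map_mono _ hJN
  have hJp_E : kJm k p ≤ E := hJp_map.trans hmap
  have r5 := IntermediateField.relrank_mul_relrank hJp_map hmap
  have r6 : IntermediateField.relrank (kJm k p) (EN.map (qExpandAlgHomC k p)) =
      IntermediateField.relrank (kJ k) EN := by
    rw [← kJ_map, IntermediateField.relrank_map_map]
  rw [relrank_kJ_eq_relrank_kJm PL hp E hJ hJp_E, ← r5, r6]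

include PL in
/-- `Nat` form of `relrank_mul_relrank_map`. -/
theorem relfinrank_mul_relfinrank_map (hp : 2 ≤ p) (EN E : IntermediateField k (LaurentSeries k))
    (hJN : kJ k ≤ EN) (hJ : kJ k ≤ E) (hmap : EN.map (qExpandAlgHomC k p) ≤ E) :
    IntermediateField.relfinrank (kJ k) EN *
        IntermediateField.relfinrank (EN.map (qExpandAlgHomC k p)) E =
      IntermediateField.relfinrank (kJ k) E := by
  have h := congrArg Cardinal.toNat (relrank_mul_relrank_map PL hp EN E hJN hJ hmap)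
  rw [Cardinal.toNat_mul] at h
  exact h

end Abstract

/-! ### Degrees along algebra homomorphisms between intermediate fields -/

section Along

variable {K Ω : Type*} [Field K] [Field Ω] [Algebra K Ω]

/-- `↥B` as a ring, seen as the top of the extension `B / A`. -/
def extendEquiv {A B : IntermediateField K Ω} (h : A ≤ B) :
    ↥B ≃+* ↥(IntermediateField.extendScalars h) where
  toFun x := ⟨x.1, x.2⟩
  invFun x := ⟨x.1, x.2⟩
  left_inv _ := rfl
  right_inv _ := rfl
  map_mul' _ _ := rfl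
  map_add' _ _ := rfl

/-- The degree along a `K`-algebra homomorphism `φ : A → B` between intermediate fields of `Ω`
which is the restriction of an endomorphism `V` of `Ω` is the relative degree `[B : V A]`. -/
theorem finrankAlong_eq_relfinrank {A B : IntermediateField K Ω} (V : Ω →ₐ[K] Ω)
    (φ : ↥A →ₐ[K] ↥B) (hφ : ∀ x : ↥A, ((φ x : ↥B) : Ω) = V (x : Ω)) :
    finrankAlong K φ = IntermediateField.relfinrank (A.map V) B := by
  have hle : A.map V ≤ B := by
    rintro _ ⟨x, hx, rfl⟩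
    have := (φ ⟨x, hx⟩).2
    rw [hφ] at this
    exact this
  rw [IntermediateField.relfinrank_eq_finrank_of_le hle]
  unfold finrankAlong
  letI := algebraAlong φ
  refine Algebra.finrank_eq_of_equiv_equiv (IntermediateField.equivMap A V).toRingEquiv
    (extendEquiv hle) ?_
  refine RingHom.ext fun x => ?_
  apply Subtype.ext
  show V (x : Ω) = ((φ x : ↥B) : Ω)
  exact (hφ x).symm

end Along

/-! ### The function fields of `X₀(N)` over `ℚ̄` -/

section Bar

local notation "Kb" => AlgebraicClosure ℚ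

variable (N ℓ : ℕ) [NeZero N] [NeZero ℓ]

open Fermat.Agent.S24.DegreeAlg

/-- `ℚ̄(J) ⊆ ℚ̄(X₀(N))`. -/
theorem kJ_le_bar : kJ Kb ≤ modularFunctionFieldBar N := by
  rw [kJ, IntermediateField.adjoin_le_iff]
  rintro x rfl
  have := (jgen N).2
  rw [Fermat.Agent.S18.B.Basic.coe_jgen_eq] at this
  exact this

/-- `[ℚ̄(X₀(N)) : ℚ̄(J)] = ψ(N)` as a relative degree inside `ℚ̄((q))`. -/
theorem relfinrank_kJ_bar :
    IntermediateField.relfinrank (kJ Kb) (modularFunctionFieldBar N) = dedekindPsi N := by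
  have h1 : (Kb⟮jgen N⟯).map (modularFunctionFieldBar N).val = kJ Kb := by
    rw [IntermediateField.adjoin_map, Set.image_singleton, kJ]
    congr 2
    exact Fermat.Agent.S18.B.Basic.coe_jgen_eq N
  have h2 : (⊤ : IntermediateField Kb (modularFunctionFieldBar N)).map
      (modularFunctionFieldBar N).val = modularFunctionFieldBar N := by
    rw [← AlgHom.fieldRange_eq_map, IntermediateField.fieldRange_val]
  calc IntermediateField.relfinrank (kJ Kb) (modularFunctionFieldBar N)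
      = IntermediateField.relfinrank ((Kb⟮jgen N⟯).map (modularFunctionFieldBar N).val)
          ((⊤ : IntermediateField Kb (modularFunctionFieldBar N)).map
            (modularFunctionFieldBar N).val) := by rw [h1, h2]
    _ = Module.finrank ↥Kb⟮jgen N⟯ ↥(modularFunctionFieldBar N) := by
        rw [IntermediateField.relfinrank_map_map, IntermediateField.relfinrank_top_right]
    _ = dedekindPsi N := Fermat.Agent.S18.C.Forms.finrank_bar_eq_dedekindPsi N

theorem dedekindPsi_pos : 0 < dedekindPsi N := by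
  rw [← Fermat.Agent.S18.C.Forms.finrank_bar_eq_dedekindPsi N]
  haveI := Fermat.Agent.S24.Degree.finiteDimensional N
  exact Module.finrank_pos

/-- `ℚ̄(X₀(N)) ⊆ ℚ̄(X₀(N ℓ))`. -/
theorem bar_le_bar : modularFunctionFieldBar N ≤ modularFunctionFieldBar (N * ℓ) := by
  intro x hx
  have := (heckeAlphaBar Kb N ℓ ⟨x, hx⟩).2
  rw [coe_heckeAlphaBar] at this
  exact this

/-- `V_ℓ ℚ̄(X₀(N)) ⊆ ℚ̄(X₀(N ℓ))`. -/
theorem map_bar_le_bar :
    (modularFunctionFieldBar N).map (qExpandAlgHomC Kb ℓ) ≤ modularFunctionFieldBar (N * ℓ) := by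
  rintro _ ⟨x, hx, rfl⟩
  exact (heckeBetaBar Kb N ℓ ⟨x, hx⟩).2

variable {ℓ}

theorem dedekindPsi_mul_prime_of_not_dvd (hℓ : ℓ.Prime) (hℓN : ¬ ℓ ∣ N) :
    dedekindPsi (N * ℓ) = dedekindPsi N * (ℓ + 1) := by
  rw [Fermat.Agent.S28.PsiRec.dedekindPsi_mul_prime (NeZero.ne N) hℓ, if_neg hℓN]

/-- **`[ℚ̄(X₀(N ℓ)) : ℚ̄(X₀(N))] = ℓ + 1`** inside `ℚ̄((q))`. -/
theorem relfinrank_bar (hℓ : ℓ.Prime) (hℓN : ¬ ℓ ∣ N) :
    IntermediateField.relfinrank (modularFunctionFieldBar N) (modularFunctionFieldBar (N * ℓ))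
      = ℓ + 1 := by
  have h := IntermediateField.relfinrank_mul_relfinrank (kJ_le_bar N) (bar_le_bar N ℓ)
  rw [relfinrank_kJ_bar, relfinrank_kJ_bar, dedekindPsi_mul_prime_of_not_dvd N hℓ hℓN] at h
  exact Nat.eq_of_mul_eq_mul_left (dedekindPsi_pos N) h

/-- The prime-level input of `S28/Step` over `ℚ̄`. -/
theorem nonempty_primeLevel (hℓ : ℓ.Prime) [NeZero (ℓ * ℓ)] : Nonempty (PrimeLevel Kb ℓ) := by
  haveI : Fact ℓ.Prime := ⟨hℓ⟩
  have hℓk : ((ℓ : ℕ) : Kb) ≠ 0 := Nat.cast_ne_zero.mpr hℓ.ne_zero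
  exact PrimeLevel.nonempty_ofDefs hℓk (Fermat.Agent.S28.ModPolyPrime.hasModPoly Kb ℓ hℓ)
    (Fermat.Agent.S28.PrimeCaseForm.qExpand_jqModC_not_mem Kb ℓ hℓk)

/-- **`[ℚ̄(X₀(N ℓ)) : V_ℓ ℚ̄(X₀(N))] = ℓ + 1`** inside `ℚ̄((q))`. -/
theorem relfinrank_map_bar (hℓ : ℓ.Prime) (hℓN : ¬ ℓ ∣ N) :
    IntermediateField.relfinrank ((modularFunctionFieldBar N).map (qExpandAlgHomC Kb ℓ))
      (modularFunctionFieldBar (N * ℓ)) = ℓ + 1 := by
  haveI : NeZero (ℓ * ℓ) := ⟨Nat.mul_ne_zero hℓ.ne_zero hℓ.ne_zero⟩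
  obtain ⟨PL⟩ := nonempty_primeLevel hℓ
  have h := relfinrank_mul_relfinrank_map PL hℓ.two_le (modularFunctionFieldBar N)
    (modularFunctionFieldBar (N * ℓ)) (kJ_le_bar N) (kJ_le_bar (N * ℓ)) (map_bar_le_bar N ℓ)
  rw [relfinrank_kJ_bar, relfinrank_kJ_bar, dedekindPsi_mul_prime_of_not_dvd N hℓ hℓN] at h
  exact Nat.eq_of_mul_eq_mul_left (dedekindPsi_pos N) h

/-- `finrank` form of `relfinrank_bar`. -/
theorem finrank_extendScalars_bar (hℓ : ℓ.Prime) (hℓN : ¬ ℓ ∣ N) :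
    Module.finrank ↥(modularFunctionFieldBar N)
      ↥(IntermediateField.extendScalars (bar_le_bar N ℓ)) = ℓ + 1 := by
  rw [← IntermediateField.relfinrank_eq_finrank_of_le]
  exact relfinrank_bar N hℓ hℓN

/-- `finrank` form of `relfinrank_map_bar`. -/
theorem finrank_extendScalars_map_bar (hℓ : ℓ.Prime) (hℓN : ¬ ℓ ∣ N) :
    Module.finrank ↥((modularFunctionFieldBar N).map (qExpandAlgHomC Kb ℓ))
      ↥(IntermediateField.extendScalars (map_bar_le_bar N ℓ)) = ℓ + 1 := by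
  rw [← IntermediateField.relfinrank_eq_finrank_of_le]
  exact relfinrank_map_bar N hℓ hℓN

/-- **The degree of `α`**: `[ℚ̄(X₀(N ℓ)) : α ℚ̄(X₀(N))] = ℓ + 1` for a prime `ℓ ∤ N`. -/
theorem finrankAlong_alpha (hℓ : ℓ.Prime) (hℓN : ¬ ℓ ∣ N) :
    finrankAlong Kb (heckeAlphaBar Kb N ℓ) = ℓ + 1 := by
  rw [finrankAlong_eq_relfinrank (AlgHom.id Kb (LaurentSeries Kb)) (heckeAlphaBar Kb N ℓ)
    (fun x => coe_heckeAlphaBar N ℓ x)]
  have : (modularFunctionFieldBar N).map (AlgHom.id Kb (LaurentSeries Kb))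
      = modularFunctionFieldBar N := IntermediateField.map_id _
  rw [this]
  exact relfinrank_bar N hℓ hℓN

/-- **The degree of `β`**: `[ℚ̄(X₀(N ℓ)) : β ℚ̄(X₀(N))] = ℓ + 1` for a prime `ℓ ∤ N`. -/
theorem finrankAlong_beta (hℓ : ℓ.Prime) (hℓN : ¬ ℓ ∣ N) :
    finrankAlong Kb (heckeBetaBar Kb N ℓ) = ℓ + 1 := by
  rw [finrankAlong_eq_relfinrank (qExpandAlgHomC Kb ℓ) (heckeBetaBar Kb N ℓ)
    (fun x => coe_heckeBetaBar N ℓ x)]
  exact relfinrank_map_bar N hℓ hℓN

end Bar

end Fermat.Agent.S37.ES.DegreeBeta
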