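/-
Project I (S37), slice I-2K, part 1: the Kummer polynomial of a Laurent series.

For a unit `ζ` of `R` and `y : R((q))` put
`kummerPoly ℓ ζ y = ∏_{b < ℓ} (X - y(ζ^b q))`.
* (K1) if `ζ^ℓ = 1` it is invariant under `q ↦ ζ q`, so (for `R` a domain and `ζ` of exact order
  `ℓ`) its coefficients are series in `q^ℓ`;
* (K2) if moreover `ℓ` is prime and `z` is NOT a series in `q^ℓ`, every polynomial with
  coefficients in `R((q^ℓ))` vanishing at `z` is divisible by `kummerPoly ℓ ζ z`;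
* (B) reduction: if `φ : R →+* k` kills `ζ - 1` then `kummerPoly` maps to `(X - ȳ)^ℓ`; in
  characteristic `ℓ` this is `X^ℓ - ȳ^ℓ` and `ȳ^ℓ = (ȳ^Frob)(q^ℓ)`.
-/
import Mathlib
import Fermat.Prelude.Def_ModularCurve_X0
import Fermat.Prelude.Def_ModularCurve_LaurentCoeff
import Fermat.Prelude.Def_ModularCurve_X0ModL
import Fermat.Agent.S28.LaurentRescale
import Fermat.Agent.S28.ExpandQ

set_option autoImplicit false

noncomputable section

namespace Fermat.Agent.S37.ES.KummerPoly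

open Polynomial ModularCurve Fermat.Agent.S28.LaurentRescale

variable {R : Type*} [CommRing R]

/-- The Kummer polynomial `∏_{b < ℓ} (X - y(ζ^b q))`. -/
def kummerPoly (ℓ : ℕ) (ζ : Rˣ) (y : LaurentSeries R) : Polynomial (LaurentSeries R) :=
  ∏ b ∈ Finset.range ℓ, (X - C (rescaleU (ζ ^ b) y))

theorem kummerPoly_monic (ℓ : ℕ) (ζ : Rˣ) (y : LaurentSeries R) : (kummerPoly ℓ ζ y).Monic :=
  monic_prod_of_monic _ _ fun _ _ => monic_X_sub_C _

theorem natDegree_kummerPoly [Nontrivial R] (ℓ : ℕ) (ζ : Rˣ) (y : LaurentSeries R) :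
    (kummerPoly ℓ ζ y).natDegree = ℓ := by
  rw [kummerPoly, natDegree_prod_of_monic _ _ fun _ _ => monic_X_sub_C _]
  simp

theorem kummerPoly_ne_zero [Nontrivial R] (ℓ : ℕ) (ζ : Rˣ) (y : LaurentSeries R) :
    kummerPoly ℓ ζ y ≠ 0 :=
  (kummerPoly_monic ℓ ζ y).ne_zero

theorem eval_kummerPoly_self {ℓ : ℕ} (hℓ : 0 < ℓ) (ζ : Rˣ) (y : LaurentSeries R) :
    (kummerPoly ℓ ζ y).eval y = 0 := by
  rw [kummerPoly, eval_prod]
  refine Finset.prod_eq_zero (Finset.mem_range.2 hℓ) ?_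
  simp

/-- The image of the Kummer polynomial under a substitution `q ↦ u q`. -/
theorem map_rescaleU_kummerPoly_eq (ℓ : ℕ) (ζ u : Rˣ) (y : LaurentSeries R) :
    (kummerPoly ℓ ζ y).map (rescaleU u : LaurentSeries R →+* LaurentSeries R) =
      kummerPoly ℓ ζ (rescaleU u y) := by
  rw [kummerPoly, kummerPoly, Polynomial.map_prod]
  refine Finset.prod_congr rfl fun b _ => ?_
  rw [Polynomial.map_sub, map_X, map_C]
  congr 2
  show rescaleU u (rescaleU (ζ ^ b) y) = rescaleU (ζ ^ b) (rescaleU u y)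
  rw [← rescaleU_mul, ← rescaleU_mul, mul_comm]

/-- (K1) invariance under `q ↦ ζ q`. -/
theorem map_rescaleU_kummerPoly {ℓ : ℕ} {ζ : Rˣ} (hζ : ζ ^ ℓ = 1) (y : LaurentSeries R) :
    (kummerPoly ℓ ζ y).map (rescaleU ζ : LaurentSeries R →+* LaurentSeries R) =
      kummerPoly ℓ ζ y := by
  rw [map_rescaleU_kummerPoly_eq]
  set f : ℕ → Polynomial (LaurentSeries R) := fun b => X - C (rescaleU (ζ ^ b) y) with hf
  have h1 : kummerPoly ℓ ζ (rescaleU ζ y) = ∏ b ∈ Finset.range ℓ, f (b + 1) := by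
    rw [kummerPoly]
    refine Finset.prod_congr rfl fun b _ => ?_
    rw [hf]
    simp only
    rw [← rescaleU_mul, ← pow_succ]
  have h2 : kummerPoly ℓ ζ y = ∏ b ∈ Finset.range ℓ, f b := rfl
  have h3 : (∏ b ∈ Finset.range ℓ, f (b + 1)) * f 0 = (∏ b ∈ Finset.range ℓ, f b) * f ℓ := by
    rw [← Finset.prod_range_succ', ← Finset.prod_range_succ]
  have h4 : f ℓ = f 0 := by
    rw [hf]
    simp only
    rw [hζ, pow_zero]
  rw [h4] at h3
  have hm : (f 0).Monic := monic_X_sub_C _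
  rw [h1, h2]
  exact hm.isRegular.right h3

/-- (K1') all coefficients of the Kummer polynomial are invariant under `q ↦ ζ q`. -/
theorem rescaleU_coeff_kummerPoly {ℓ : ℕ} {ζ : Rˣ} (hζ : ζ ^ ℓ = 1) (y : LaurentSeries R)
    (n : ℕ) : rescaleU ζ ((kummerPoly ℓ ζ y).coeff n) = (kummerPoly ℓ ζ y).coeff n := by
  conv_rhs => rw [← map_rescaleU_kummerPoly hζ y]
  rw [coeff_map]
  rfl

/-- (K1'') over a domain, for `ζ` of exact order `ℓ`, the coefficients of the Kummer polynomial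
are series in `q^ℓ`. -/
theorem coeff_kummerPoly_mem_range [IsDomain R] {ℓ : ℕ} [NeZero ℓ] {ζ : Rˣ}
    (hζ : orderOf ζ = ℓ) (y : LaurentSeries R) (n : ℕ) :
    (kummerPoly ℓ ζ y).coeff n ∈ Set.range (qExpand R ℓ) := by
  rw [← rescaleU_eq_self_iff ℓ hζ]
  exact rescaleU_coeff_kummerPoly (by rw [← hζ, pow_orderOf_eq_one]) y n

theorem kummerPoly_mem_lifts [IsDomain R] {ℓ : ℕ} [NeZero ℓ] {ζ : Rˣ}
    (hζ : orderOf ζ = ℓ) (y : LaurentSeries R) :
    kummerPoly ℓ ζ y ∈ Polynomial.lifts (qExpand R ℓ) := by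
  rw [Polynomial.lifts_iff_coeff_lifts]
  exact fun n => coeff_kummerPoly_mem_range hζ y n

/-! ### (K2) divisibility -/

section Divisibility

variable [IsDomain R]

/-- The `ℓ` conjugates `z(ζ^b q)` of a series `z` which is not a series in `q^ℓ` are pairwise
distinct (`ℓ` prime). -/
theorem eq_of_rescaleU_pow_eq {ℓ : ℕ} [NeZero ℓ] (hℓ : ℓ.Prime) {ζ : Rˣ} (hζ : orderOf ζ = ℓ)
    {z : LaurentSeries R} (hz : z ∉ Set.range (qExpand R ℓ)) {b b' : ℕ} (hb : b < ℓ)
    (hb' : b' < ℓ) (h : rescaleU (ζ ^ b) z = rescaleU (ζ ^ b') z) : b = b' := by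
  wlog hle : b ≤ b' generalizing b b'
  · exact (this hb' hb h.symm (le_of_not_ge hle)).symm
  by_contra hne
  have hlt : b < b' := lt_of_le_of_ne hle hne
  set d := b' - b with hd
  have hd0 : 0 < d := Nat.sub_pos_of_lt hlt
  have hdl : d < ℓ := lt_of_le_of_lt (Nat.sub_le _ _) hb'
  have hb'eq : ζ ^ b' = ζ ^ b * ζ ^ d := by rw [← pow_add, hd, Nat.add_sub_cancel' hle]
  rw [hb'eq, rescaleU_mul] at h
  have h' : z = rescaleU (ζ ^ d) z := (rescaleU (ζ ^ b)).injective h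
  have hcop : (orderOf ζ).Coprime d := by
    rw [hζ]
    exact (Nat.Prime.coprime_iff_not_dvd hℓ).2 (Nat.not_dvd_of_pos_of_lt hd0 hdl)
  have hord : orderOf (ζ ^ d) = ℓ := by rw [Nat.Coprime.orderOf_pow hcop, hζ]
  exact hz ((rescaleU_eq_self_iff ℓ hord z).1 h'.symm)

/-- (K2) Let `ℓ` be prime, `ζ` of exact order `ℓ`, and let `z` be a Laurent series which is not a
series in `q^ℓ`.  A nonzero polynomial `p` invariant under `q ↦ ζ q` (i.e. with coefficients in
`R((q^ℓ))`) which vanishes at `z` is divisible by the Kummer polynomial of `z`. -/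
theorem kummerPoly_dvd {ℓ : ℕ} [NeZero ℓ] (hℓ : ℓ.Prime) {ζ : Rˣ} (hζ : orderOf ζ = ℓ)
    {z : LaurentSeries R} (hz : z ∉ Set.range (qExpand R ℓ))
    {p : Polynomial (LaurentSeries R)} (hp0 : p ≠ 0)
    (hp : p.map (rescaleU ζ : LaurentSeries R →+* LaurentSeries R) = p)
    (hroot : p.eval z = 0) : kummerPoly ℓ ζ z ∣ p := by
  classical
  have hpb : ∀ b : ℕ, p.map (rescaleU (ζ ^ b) : LaurentSeries R →+* LaurentSeries R) = p := by
    intro b
    induction b with
    | zero =>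
      rw [pow_zero]
      refine Polynomial.ext fun n => ?_
      rw [coeff_map]
      exact rescaleU_one _
    | succ b ih =>
      refine Polynomial.ext fun n => ?_
      have h1 := congrArg (fun q : Polynomial (LaurentSeries R) => q.coeff n) ih
      have h2 := congrArg (fun q : Polynomial (LaurentSeries R) => q.coeff n) hp
      simp only [coeff_map] at h1 h2
      rw [coeff_map, pow_succ]
      show rescaleU (ζ ^ b * ζ) (p.coeff n) = p.coeff n
      rw [rescaleU_mul]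
      exact (congrArg (rescaleU (ζ ^ b)) h2).trans h1
  have hrootb : ∀ b : ℕ, p.eval (rescaleU (ζ ^ b) z) = 0 := by
    intro b
    have := Polynomial.eval_map_apply (p := p)
      (rescaleU (ζ ^ b) : LaurentSeries R →+* LaurentSeries R) z
    rw [hpb b, hroot] at this
    exact this.trans (map_zero _)
  set s : Multiset (LaurentSeries R) :=
    (Finset.range ℓ).val.map fun b => rescaleU (ζ ^ b) z with hs
  have hnodup : s.Nodup := by
    refine Multiset.Nodup.map_on ?_ (Finset.range ℓ).nodup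
    intro b hb b' hb' h
    exact eq_of_rescaleU_pow_eq hℓ hζ hz (Finset.mem_range.1 hb) (Finset.mem_range.1 hb') h
  have hle : s ≤ p.roots := by
    rw [Multiset.le_iff_subset hnodup]
    intro a ha
    obtain ⟨b, _, rfl⟩ := Multiset.mem_map.1 ha
    exact (mem_roots hp0).2 (hrootb b)
  have hk : kummerPoly ℓ ζ z = (s.map fun a => X - C a).prod := by
    rw [kummerPoly, hs, Multiset.map_map]
    rfl
  rw [hk]
  exact (Multiset.prod_X_sub_C_dvd_iff_le_roots hp0 s).2 hle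

/-- (K2') the same with `p` given as the image of a polynomial under `q ↦ q^ℓ`. -/
theorem kummerPoly_dvd_map_qExpand {ℓ : ℕ} [NeZero ℓ] (hℓ : ℓ.Prime) {ζ : Rˣ}
    (hζ : orderOf ζ = ℓ) {z : LaurentSeries R} (hz : z ∉ Set.range (qExpand R ℓ))
    {p₀ : Polynomial (LaurentSeries R)} (hp0 : p₀ ≠ 0)
    (hroot : (p₀.map (qExpand R ℓ)).eval z = 0) :
    kummerPoly ℓ ζ z ∣ p₀.map (qExpand R ℓ) := by
  refine kummerPoly_dvd hℓ hζ hz ?_ ?_ hroot
  · exact (Polynomial.map_ne_zero_iff (qExpand_injective ℓ)).2 hp0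
  · refine Polynomial.ext fun n => ?_
    rw [coeff_map, coeff_map]
    exact rescaleU_qExpand_of_pow_eq_one ℓ (by rw [← hζ, pow_orderOf_eq_one]) _

end Divisibility

/-! ### (B) reduction -/

section Reduction

variable {k : Type*} [CommRing k]

/-- If `φ` sends `ζ` to `1`, the Kummer polynomial reduces to `(X - ȳ)^ℓ`. -/
theorem map_coeffMap_kummerPoly (φ : R →+* k) {ζ : Rˣ} (hφ : φ ζ = 1) (ℓ : ℕ)
    (y : LaurentSeries R) :
    (kummerPoly ℓ ζ y).map (coeffMap φ) = (X - C (coeffMap φ y)) ^ ℓ := by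
  have hu : Units.map φ.toMonoidHom ζ = 1 := Units.ext hφ
  rw [kummerPoly, Polynomial.map_prod]
  rw [Finset.prod_congr rfl (g := fun _ => X - C (coeffMap φ y))]
  · rw [Finset.prod_const, Finset.card_range]
  · intro b _
    rw [Polynomial.map_sub, map_X, map_C, coeffMap_rescaleU, map_pow, hu, one_pow, rescaleU_one]

/-- In a reduced ring of characteristic `ℓ` the only `ℓ`-th root of unity is `1`. -/
theorem eq_one_of_pow_char_eq_one [IsReduced k] (ℓ : ℕ) [Fact ℓ.Prime] [CharP k ℓ] {u : k}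
    (hu : u ^ ℓ = 1) : u = 1 := by
  have h : (u - 1) ^ ℓ = 0 := by rw [sub_pow_char, hu, one_pow, sub_self]
  exact sub_eq_zero.1 (IsReduced.eq_zero _ ⟨ℓ, h⟩)

theorem charP_laurentSeries (ℓ : ℕ) [CharP k ℓ] : CharP (LaurentSeries k) ℓ :=
  charP_of_injective_ringHom (f := (HahnSeries.C : k →+* LaurentSeries k))
    HahnSeries.C_injective ℓ

/-- `(X - z)^ℓ = X^ℓ - z^ℓ` over Laurent series in characteristic `ℓ`. -/
theorem X_sub_C_pow_char (ℓ : ℕ) [Fact ℓ.Prime] [CharP k ℓ] (z : LaurentSeries k) :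
    (X - C z : Polynomial (LaurentSeries k)) ^ ℓ = X ^ ℓ - C (z ^ ℓ) := by
  haveI := charP_laurentSeries (k := k) ℓ
  rw [sub_pow_char, C_pow]

/-- In characteristic `ℓ`: `z^ℓ = (z^Frob)(q^ℓ)`. -/
theorem pow_char_eq_qExpand (ℓ : ℕ) [hℓ : Fact ℓ.Prime] [CharP k ℓ] (z : LaurentSeries k) :
    haveI : NeZero ℓ := ⟨hℓ.out.ne_zero⟩
    z ^ ℓ = qExpand k ℓ (coeffMap (frobenius k ℓ) z) := by
  haveI : NeZero ℓ := ⟨hℓ.out.ne_zero⟩
  conv_lhs => rw [← z.single_order_mul_powerSeriesPart]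
  conv_rhs => rw [← z.single_order_mul_powerSeriesPart]
  rw [mul_pow, map_mul (coeffMap (frobenius k ℓ)), map_mul (qExpand k ℓ), coeffMap_single,
    map_one (frobenius k ℓ), qExpand_single, HahnSeries.single_pow,
    one_pow, coeffMap_ofPowerSeries, ← Fermat.Agent.S28.ExpandQ.ofPowerSeries_expand,
    ← map_pow (HahnSeries.ofPowerSeries ℤ k)]
  have h1 : ℓ • HahnSeries.order z = (ℓ : ℤ) * HahnSeries.order z := by simp
  have h2 : z.powerSeriesPart ^ ℓ =
      PowerSeries.expand ℓ (NeZero.ne ℓ) (PowerSeries.map (frobenius k ℓ) z.powerSeriesPart) := by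
    rw [← PowerSeries.map_expand]
    exact (MvPowerSeries.map_frobenius_expand ℓ hℓ.out.ne_zero (f := z.powerSeriesPart)).symm
  rw [h1, h2]

/-- (B) summary: for `φ : R →+* k`, `k` reduced of characteristic `ℓ`, `ζ^ℓ = 1`:
`kummerPoly ℓ ζ y` reduces to `X^ℓ - (ȳ^Frob)(q^ℓ)`. -/
theorem map_coeffMap_kummerPoly_char [IsReduced k] (ℓ : ℕ) [hℓ : Fact ℓ.Prime] [CharP k ℓ]
    (φ : R →+* k) {ζ : Rˣ} (hζ : ζ ^ ℓ = 1) (y : LaurentSeries R) :
    haveI : NeZero ℓ := ⟨hℓ.out.ne_zero⟩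
    (kummerPoly ℓ ζ y).map (coeffMap φ) =
      X ^ ℓ - C (qExpand k ℓ (coeffMap (frobenius k ℓ) (coeffMap φ y))) := by
  have hφ : φ ζ = 1 := by
    refine eq_one_of_pow_char_eq_one ℓ ?_
    rw [← map_pow, ← Units.val_pow_eq_pow_val, hζ, Units.val_one, map_one]
  rw [map_coeffMap_kummerPoly φ hφ, X_sub_C_pow_char, pow_char_eq_qExpand]

end Reduction

end Fermat.Agent.S37.ES.KummerPoly
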