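/-
Project I (S37), slice I-2K, part 2: the Kummer splitting theorem.

* `charpoly_map_eq_prod_embeddings` (general): for a finite separable extension `L/K` of an
  infinite field and an algebraically closed `E ⊇ K`, the characteristic polynomial of
  multiplication by `y` is `∏_σ (X - σ y)` over the `K`-embeddings `σ : L → E`.
* `exists_rho_charpoly` (H2): let `E0/F0` be finite separable of degree `ℓ + 1` (`ℓ` prime), with a
  ring hom `ι : E0 → L((q))` mapping `F0` into `L((q^ℓ))` and `E0` not into `L((q^ℓ))`.  Then there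
  is a unique second `F0`-embedding `ρ : E0 → L((q^ℓ))`, and for every `y`
  `charpoly_{E0/F0}(y) = (X - ρ y) * ∏_{b < ℓ} (X - (ι y)(ζ^b q))`.
-/
import Mathlib
import Fermat.Agent.S37.ES.KummerPoly

set_option autoImplicit false

noncomputable section

namespace Fermat.Agent.S37.ES.KummerSplit

open Polynomial ModularCurve Fermat.Agent.S28.LaurentRescale Fermat.Agent.S37.ES.KummerPoly

/-! ### Characteristic polynomial and embeddings -/

section General

variable (K : Type*) {L : Type*} (E : Type*) [Field K] [Field L] [Field E] [Algebra K L]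
  [Algebra K E] [FiniteDimensional K L] [Algebra.IsSeparable K L] [IsAlgClosed E] [Infinite K]

/-- The characteristic polynomial of multiplication by `y` in a finite separable extension is the
product of `X - σ y` over all embeddings into an algebraically closed field. -/
theorem charpoly_map_eq_prod_embeddings (y : L) :
    (LinearMap.charpoly (Algebra.lmul K L y)).map (algebraMap K E) =
      ∏ σ : L →ₐ[K] E, (X - C (σ y)) := by
  refine Polynomial.eq_of_infinite_eval_eq _ _ ?_
  refine Set.Infinite.mono ?_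
    (Set.infinite_range_of_injective (FaithfulSMul.algebraMap_injective K E))
  rintro _ ⟨c, rfl⟩
  show eval _ _ = eval _ _
  rw [eval_map, eval₂_at_apply, LinearMap.eval_charpoly, eval_prod]
  have h1 : (algebraMap K (L →ₗ[K] L)) c - Algebra.lmul K L y =
      Algebra.lmul K L (algebraMap K L c - y) := by
    rw [map_sub]
    congr 1
    ext z
    simp [Algebra.smul_def]
  rw [h1, ← Algebra.norm_apply, Algebra.norm_eq_prod_embeddings K E]
  refine Finset.prod_congr rfl fun σ _ => ?_
  rw [eval_sub, eval_X, eval_C, map_sub, AlgHom.commutes]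

end General

/-! ### The splitting theorem -/

section Split

variable {L : Type*} [Field L] {ℓ : ℕ} [NeZero ℓ]
variable {F0 E0 : Type*} [Field F0] [Field E0] [Algebra F0 E0]

/-- Elements obtained by evaluating polynomials with coefficients in `L((q^ℓ))` at a series in
`L((q^ℓ))` are in `L((q^ℓ))`. -/
theorem eval₂_mem_range_qExpand (φ : F0 →+* LaurentSeries L)
    (hφ : ∀ a, φ a ∈ Set.range (qExpand L ℓ)) {r : LaurentSeries L}
    (hr : r ∈ Set.range (qExpand L ℓ)) (h : Polynomial F0) :
    h.eval₂ φ r ∈ Set.range (qExpand L ℓ) := by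
  have hS : ∀ z, z ∈ Set.range (qExpand L ℓ) ↔ z ∈ (qExpand L ℓ).range := fun z => Iff.rfl
  rw [hS] at hr ⊢
  rw [eval₂_eq_sum_range]
  refine Subring.sum_mem _ fun i _ => ?_
  exact Subring.mul_mem _ ((hS _).1 (hφ _)) (Subring.pow_mem _ hr i)

variable [FiniteDimensional F0 E0] [Algebra.IsSeparable F0 E0] [Infinite F0]

/-- **(H2) Kummer splitting.** -/
theorem exists_rho_charpoly (hℓ : ℓ.Prime) {ζ : Lˣ} (hζ : orderOf ζ = ℓ)
    (hdeg : Module.finrank F0 E0 = ℓ + 1) (ι : E0 →+* LaurentSeries L)
    (hF : ∀ a : F0, ι (algebraMap F0 E0 a) ∈ Set.range (qExpand L ℓ))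
    (hE : ∃ y : E0, ι y ∉ Set.range (qExpand L ℓ)) :
    ∃ ρ : E0 →+* LaurentSeries L,
      (∀ a : F0, ρ (algebraMap F0 E0 a) = ι (algebraMap F0 E0 a)) ∧
      (∀ y : E0, ρ y ∈ Set.range (qExpand L ℓ)) ∧
      ∀ y : E0, (LinearMap.charpoly (Algebra.lmul F0 E0 y)).map (ι.comp (algebraMap F0 E0)) =
        (X - C (ρ y)) * kummerPoly ℓ ζ (ι y) := by
  classical
  have hζℓ : ζ ^ ℓ = 1 := by rw [← hζ, pow_orderOf_eq_one]
  set φ : F0 →+* LaurentSeries L := ι.comp (algebraMap F0 E0) with hφ
  -- `q ↦ ζ^b q` fixes the image of `F0`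
  have hfix : ∀ (b : ℕ) (a : F0), rescaleU (ζ ^ b) (φ a) = φ a := by
    intro b a
    obtain ⟨g, hg⟩ := hF a
    rw [hφ, RingHom.comp_apply, ← hg]
    exact rescaleU_qExpand_of_pow_eq_one ℓ (by rw [← pow_mul, mul_comm, pow_mul, hζℓ, one_pow]) g
  letI algF : Algebra F0 (LaurentSeries L) := φ.toAlgebra
  have halg : ∀ a : F0, algebraMap F0 (LaurentSeries L) a = φ a := fun _ => rfl
  set pb : PowerBasis F0 E0 := Field.powerBasisOfFiniteOfSeparable F0 E0 with hpb
  set x : E0 := pb.gen with hx
  have hdim : pb.dim = ℓ + 1 := by rw [← pb.finrank, hdeg]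
  -- `ι x` is not a series in `q^ℓ`
  have hιx : ι x ∉ Set.range (qExpand L ℓ) := by
    intro hmem
    obtain ⟨y, hy⟩ := hE
    apply hy
    obtain ⟨h, rfl⟩ := pb.exists_eq_aeval' y
    have : ι (aeval pb.gen h) = h.eval₂ φ (ι x) := by
      rw [aeval_def, hom_eval₂]
    rw [this]
    exact eval₂_mem_range_qExpand φ hF hmem h
  -- the minimal polynomial of `x`, mapped to Laurent series
  set m : Polynomial F0 := minpoly F0 x with hm
  have hmmonic : m.Monic := minpoly.monic (Algebra.IsIntegral.isIntegral x)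
  have hmdeg : m.natDegree = ℓ + 1 := by rw [hm, hx, pb.natDegree_minpoly, hdim]
  set m' : Polynomial (LaurentSeries L) := m.map φ with hm'
  have hm'monic : m'.Monic := hmmonic.map φ
  have hm'deg : m'.natDegree = ℓ + 1 := by rw [hm', hmmonic.natDegree_map, hmdeg]
  have hm'inv : ∀ b : ℕ,
      m'.map (rescaleU (ζ ^ b) : LaurentSeries L →+* LaurentSeries L) = m' := by
    intro b
    rw [hm', Polynomial.map_map]
    congr 1
    ext a : 1
    exact hfix b a
  have hm'root : m'.eval (ι x) = 0 := by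
    rw [hm', eval_map, hφ, ← hom_eval₂, ← aeval_def, hm, minpoly.aeval, map_zero]
  have hdvd : kummerPoly ℓ ζ (ι x) ∣ m' := by
    refine kummerPoly_dvd hℓ hζ hιx hm'monic.ne_zero ?_ hm'root
    have := hm'inv 1
    rwa [pow_one] at this
  obtain ⟨c, hc⟩ := hdvd
  have hkm : (kummerPoly ℓ ζ (ι x)).Monic := kummerPoly_monic ℓ ζ (ι x)
  have hcmonic : c.Monic := hkm.of_mul_monic_left (hc ▸ hm'monic)
  have hcdeg : c.natDegree = 1 := by
    have := congrArg natDegree hc
    rw [hkm.natDegree_mul hcmonic, hm'deg, natDegree_kummerPoly] at this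
    omega
  set r : LaurentSeries L := -c.coeff 0 with hr
  have hcr : c = X - C r := by
    rw [hr, map_neg, sub_neg_eq_add]
    exact hcmonic.eq_X_add_C hcdeg
  -- `r` is a series in `q^ℓ`
  have hrfix : rescaleU ζ r = r := by
    have h1 := congrArg (Polynomial.map (rescaleU ζ : LaurentSeries L →+* LaurentSeries L)) hc
    have h2 := hm'inv 1
    rw [pow_one] at h2
    rw [h2, Polynomial.map_mul, map_rescaleU_kummerPoly hζℓ, hc] at h1
    have h3 := hkm.isRegular.left h1
    rw [hcr, Polynomial.map_sub, map_X, map_C] at h3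
    have h4 : C r = C ((rescaleU ζ : LaurentSeries L →+* LaurentSeries L) r) :=
      sub_right_injective h3
    exact (C_injective h4).symm
  have hrmem : r ∈ Set.range (qExpand L ℓ) := (rescaleU_eq_self_iff ℓ hζ r).1 hrfix
  have hrfixb : ∀ b : ℕ, rescaleU (ζ ^ b) r = r := by
    intro b
    obtain ⟨g, hg⟩ := hrmem
    rw [← hg]
    exact rescaleU_qExpand_of_pow_eq_one ℓ (by rw [← pow_mul, mul_comm, pow_mul, hζℓ, one_pow]) g
  have hrroot : aeval r (minpoly F0 pb.gen) = 0 := by
    rw [aeval_def]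
    show eval₂ φ r m = 0
    rw [← eval_map, ← hm', hc, hcr, eval_mul, eval_sub, eval_X, eval_C, sub_self, mul_zero]
  -- the second embedding
  set ρ : E0 →ₐ[F0] LaurentSeries L := pb.lift r hrroot with hρ
  have hρx : ρ x = r := pb.lift_gen r hrroot
  have hρaeval : ∀ h : Polynomial F0, ρ (aeval pb.gen h) = h.eval₂ φ r := by
    intro h
    rw [← aeval_algHom_apply, hρ, pb.lift_gen, aeval_def]
    rfl
  have hρmem : ∀ y : E0, (ρ : E0 →+* LaurentSeries L) y ∈ Set.range (qExpand L ℓ) := by
    intro y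
    obtain ⟨h, rfl⟩ := pb.exists_eq_aeval' y
    show ρ (aeval pb.gen h) ∈ _
    rw [hρaeval]
    exact eval₂_mem_range_qExpand φ hF hrmem h
  refine ⟨ρ, fun a => ρ.commutes a, hρmem, fun y => ?_⟩
  -- the characteristic polynomial, via embeddings into an algebraic closure
  set Ω := AlgebraicClosure (LaurentSeries L) with hΩ
  set j : LaurentSeries L →+* Ω := algebraMap (LaurentSeries L) Ω with hj
  have hjinj : Function.Injective j := FaithfulSMul.algebraMap_injective _ _
  have halgΩ : ∀ a : F0, algebraMap F0 Ω a = j (φ a) := fun a =>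
    IsScalarTower.algebraMap_apply F0 (LaurentSeries L) Ω a
  -- the `ℓ + 1` embeddings
  let τ : Option (Fin ℓ) → (E0 →ₐ[F0] Ω) := fun o =>
    match o with
    | none => (IsScalarTower.toAlgHom F0 (LaurentSeries L) Ω).comp ρ
    | some b =>
      { toRingHom := j.comp ((rescaleU (ζ ^ (b : ℕ)) : LaurentSeries L →+* LaurentSeries L).comp ι)
        commutes' := fun a => by
          rw [halgΩ]
          show j (rescaleU (ζ ^ (b : ℕ)) (φ a)) = j (φ a)
          rw [hfix] }
  have hτnone : ∀ z : E0, τ none z = j (ρ z) := fun _ => rfl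
  have hτsome : ∀ (b : Fin ℓ) (z : E0), τ (some b) z = j (rescaleU (ζ ^ (b : ℕ)) (ι z)) :=
    fun _ _ => rfl
  have hτinj : Function.Injective τ := by
    intro o o' h
    have hx' : τ o x = τ o' x := congrArg (fun σ : E0 →ₐ[F0] Ω => σ x) h
    rcases o with _ | b <;> rcases o' with _ | b'
    · rfl
    · exfalso
      rw [hτnone, hτsome, hρx] at hx'
      have h1 := hjinj hx'
      apply hιx
      have h2 : ι x = rescaleU ((ζ ^ (b' : ℕ))⁻¹) r := by
        rw [h1, ← rescaleU_mul, inv_mul_cancel, rescaleU_one]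
      rw [h2, ← inv_pow]
      obtain ⟨g, hg⟩ := hrmem
      rw [← hg, rescaleU_qExpand_of_pow_eq_one ℓ
        (by rw [← pow_mul, mul_comm, pow_mul, inv_pow, hζℓ, inv_one, one_pow]) g]
      exact ⟨g, rfl⟩
    · exfalso
      rw [hτnone, hτsome, hρx] at hx'
      have h1 := (hjinj hx').symm
      apply hιx
      have h2 : ι x = rescaleU ((ζ ^ (b : ℕ))⁻¹) r := by
        rw [h1, ← rescaleU_mul, inv_mul_cancel, rescaleU_one]
      rw [h2, ← inv_pow]
      obtain ⟨g, hg⟩ := hrmem
      rw [← hg, rescaleU_qExpand_of_pow_eq_one ℓ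
        (by rw [← pow_mul, mul_comm, pow_mul, inv_pow, hζℓ, inv_one, one_pow]) g]
      exact ⟨g, rfl⟩
    · rw [hτsome, hτsome] at hx'
      have h1 := hjinj hx'
      have := eq_of_rescaleU_pow_eq hℓ hζ hιx b.2 b'.2 h1
      rw [Fin.ext this]
  have hcard : Fintype.card (Option (Fin ℓ)) = Fintype.card (E0 →ₐ[F0] Ω) := by
    rw [AlgHom.card, hdeg, Fintype.card_option, Fintype.card_fin]
  have hτbij : Function.Bijective τ :=
    (Fintype.bijective_iff_injective_and_card τ).2 ⟨hτinj, hcard⟩
  have hmain := charpoly_map_eq_prod_embeddings F0 Ω y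
  rw [← hτbij.prod_comp fun σ => X - C (σ y), Fintype.prod_option] at hmain
  apply Polynomial.map_injective j hjinj
  rw [Polynomial.map_map]
  refine hmain.trans ?_
  rw [Polynomial.map_mul, Polynomial.map_sub, map_X, map_C, kummerPoly, Polynomial.map_prod,
    ← Fin.prod_univ_eq_prod_range (fun b => Polynomial.map j (X - C (rescaleU (ζ ^ b) (ι y)))) ℓ]
  congr 1
  refine Finset.prod_congr rfl fun b _ => ?_
  rw [Polynomial.map_sub, map_X, map_C, hτsome]

end Split

end Fermat.Agent.S37.ES.KummerSplit
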