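/-
Project I (S37), slice I-2H: the second embedding of `ℚ̄(X₀(N ℓ))` over `β ℚ̄(X₀(N))`
(equivalently: the Atkin-Lehner swap), and the Hecke polynomial theorem.

`Kb = AlgebraicClosure ℚ`, `F = modularFunctionFieldBar N`, `E = modularFunctionFieldBar (N ℓ)`
inside `Kb((q))`, `α = heckeAlphaBar` (inclusion), `β = heckeBetaBar` (`q ↦ q^ℓ`), `ℓ` prime, `ℓ ∤ N`.

* `exists_rho` : there is a `Kb`-algebra hom `ρ : E → Kb((q))` with
  `ρ (α g) = g(q^(ℓ²))` and `ρ (β g) = g(q^ℓ)` for all `g ∈ F`;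
* `exists_rho_charpoly_bar` : moreover, for every `y ∈ E`,
  `charpoly_{E / β F}(y) = (X - ρ y) ∏_{b < ℓ} (X - y(ζ^b q))` (coefficients read in `Kb((q))`
  through `q ↦ q^ℓ`), for any `ζ` of exact order `ℓ`.  For `y = α g` this is the Hecke polynomial
  `(X - g(q^(ℓ²))) ∏_b (X - g(ζ^b q))`.

Proof: `[E : β F] = ℓ + 1` (`ES/DegreeBeta`), the Kummer splitting (`ES/KummerSplit`), and root
selection in characteristic `0`: `ρ (α j_d)` is a root in `Kb((q^ℓ))` of
`Φ_ℓ(j(q^(dℓ)), Y) = (Y - j(q^(dℓ²))) ∏_b (Y - j(ζ^b q^d))`, and `j(ζ^b q^d) ∉ Kb((q^ℓ))` as `ℓ ∤ d`.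
-/
import Mathlib
import Fermat.Prelude.Def_ModularCurve_HeckeOperatorTotal
import Fermat.Agent.S28.Defs
import Fermat.Agent.S28.ModPolyPrime
import Fermat.Agent.S28.Step.OfDefs
import Fermat.Agent.S24.DegreeAlg
import Fermat.Agent.S18.B.Basic
import Fermat.Agent.S37.ES.DegreeBeta
import Fermat.Agent.S37.ES.KummerSplit

set_option autoImplicit false

noncomputable section

namespace Fermat.Agent.S37.ES.HeckeRho

open Polynomial ModularCurve AlgebraicCurve IntermediateField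
  Fermat.Agent.S28.LaurentRescale Fermat.Agent.S37.ES.KummerPoly Fermat.Agent.S37.ES.KummerSplit

/-! ### Bivariate evaluation commutes with algebra homs -/

section Biv

variable {R B B' : Type*} [CommRing R] [CommRing B] [CommRing B'] [Algebra R B] [Algebra R B']

/-- The value `Φ(u, v)` of a bivariate polynomial `Φ ∈ R[Y][X]` at `Y = u`, `X = v`. -/
def biEval (Φ : Polynomial (Polynomial R)) (u v : B) : B :=
  (Φ.map (aeval u : Polynomial R →ₐ[R] B).toRingHom).eval v

theorem map_biEval (f : B →ₐ[R] B') (Φ : Polynomial (Polynomial R)) (u v : B) :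
    f (biEval Φ u v) = biEval Φ (f u) (f v) := by
  unfold biEval
  rw [eval_map, eval_map, ← AlgHom.coe_toRingHom f, hom_eval₂]
  congr 1
  refine RingHom.ext fun p => ?_
  show f (aeval u p) = aeval (f u) p
  rw [aeval_algHom_apply]

end Biv

local notation "Kb" => AlgebraicClosure ℚ

/-! ### Series facts -/

section Series

variable {k : Type*} [Field k]

theorem coeff_neg_one_jqModC : (jqModC k).coeff (-1) = 1 := coeff_jqModC_neg_one k

/-- `j(ζ^b q^d)` is not a series in `q^ℓ` when `ℓ ∤ d`. -/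
theorem qExpand_rescaleU_jqModC_not_mem {ℓ d : ℕ} [NeZero ℓ] [NeZero d] (hℓd : ¬ ℓ ∣ d)
    (u : kˣ) : qExpand k d (rescaleU u (jqModC k)) ∉ Set.range (qExpand k ℓ) := by
  intro h
  rw [mem_range_qExpand_iff] at h
  have h1 := h ((d : ℤ) * (-1)) (by
    intro hdvd
    apply hℓd
    have : (ℓ : ℤ) ∣ (d : ℤ) := by
      have := (dvd_neg (a := (ℓ : ℤ)) (b := (d : ℤ))).1 (by simpa using hdvd)
      exact this
    exact_mod_cast this)
  rw [qExpand_coeff_mul, coeff_rescaleU, coeff_neg_one_jqModC, mul_one] at h1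
  exact (Units.ne_zero _) h1

end Series

/-! ### The main theorem -/

section Main

variable (N : ℕ) {ℓ : ℕ} [NeZero N] [NeZero ℓ]

open Fermat.Agent.S24.DegreeAlg

/-- The `q`-expansion of the generator `j(q^d)` of `ℚ̄(X₀(N))`. -/
theorem coe_jdivF (d : {d : ℕ // d ∣ N}) :
    haveI : NeZero d.1 := neZero_of_dvd d.2
    ((jdivF N d : ↥(modularFunctionFieldBar N)) : LaurentSeries Kb) =
      qExpand Kb d.1 (jqModC Kb) := by
  haveI : NeZero d.1 := neZero_of_dvd d.2
  show jdiv Kb N d = _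
  obtain ⟨d, hd⟩ := d
  rw [jdiv_eq_qExpand, Fermat.Agent.S18.B.Basic.coeffEmb_jq]

/-- Two `Kb`-algebra homs out of `ℚ̄(X₀(N))` agreeing on the generators `j(q^d)` are equal. -/
theorem algHom_ext_jdivF {B : Type*} [Field B] [Algebra Kb B]
    (f g : ↥(modularFunctionFieldBar N) →ₐ[Kb] B)
    (h : ∀ d : {d : ℕ // d ∣ N}, f (jdivF N d) = g (jdivF N d)) : f = g := by
  have key : ∀ x : LaurentSeries Kb, x ∈ IntermediateField.adjoin Kb (Set.range (jdiv Kb N)) →
      ∀ hx : x ∈ modularFunctionFieldBar N, f ⟨x, hx⟩ = g ⟨x, hx⟩ := by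
    intro x hx
    induction hx using IntermediateField.adjoin_induction with
    | mem x hx =>
      obtain ⟨d, rfl⟩ := hx
      intro hx'
      exact h d
    | algebraMap c =>
      intro hx'
      have : (⟨algebraMap Kb (LaurentSeries Kb) c, hx'⟩ : ↥(modularFunctionFieldBar N)) =
          algebraMap Kb ↥(modularFunctionFieldBar N) c := rfl
      rw [this, AlgHom.commutes, AlgHom.commutes]
    | add x y hx hy ihx ihy =>
      intro hxy
      have hx' : x ∈ modularFunctionFieldBar N := by rw [bar_eq_adjoin]; exact hx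
      have hy' : y ∈ modularFunctionFieldBar N := by rw [bar_eq_adjoin]; exact hy
      have : (⟨x + y, hxy⟩ : ↥(modularFunctionFieldBar N)) = ⟨x, hx'⟩ + ⟨y, hy'⟩ := rfl
      rw [this, map_add, map_add, ihx hx', ihy hy']
    | inv x hx ihx =>
      intro hxi
      have hx' : x ∈ modularFunctionFieldBar N := by rw [bar_eq_adjoin]; exact hx
      have : (⟨x⁻¹, hxi⟩ : ↥(modularFunctionFieldBar N)) = (⟨x, hx'⟩)⁻¹ := rfl
      rw [this, map_inv₀, map_inv₀, ihx hx']
    | mul x y hx hy ihx ihy =>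
      intro hxy
      have hx' : x ∈ modularFunctionFieldBar N := by rw [bar_eq_adjoin]; exact hx
      have hy' : y ∈ modularFunctionFieldBar N := by rw [bar_eq_adjoin]; exact hy
      have : (⟨x * y, hxy⟩ : ↥(modularFunctionFieldBar N)) = ⟨x, hx'⟩ * ⟨y, hy'⟩ := rfl
      rw [this, map_mul, map_mul, ihx hx', ihy hy']
  ext ⟨x, hx⟩
  exact key x (by rw [← bar_eq_adjoin]; exact hx) hx

variable {N}

/-- `[E : β F]` is finite. -/
theorem finite_beta (hℓ : ℓ.Prime) (hℓN : ¬ ℓ ∣ N) :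
    letI := algebraAlong (heckeBetaBar Kb N ℓ)
    Module.Finite ↥(modularFunctionFieldBar N) ↥(modularFunctionFieldBar (N * ℓ)) := by
  letI := algebraAlong (heckeBetaBar Kb N ℓ)
  have hfr : Module.finrank ↥(modularFunctionFieldBar N) ↥(modularFunctionFieldBar (N * ℓ))
      = ℓ + 1 := Fermat.Agent.S37.ES.DegreeBeta.finrankAlong_beta N hℓ hℓN
  exact FiniteDimensional.of_finrank_pos (by rw [hfr]; omega)

/-- The modular equation, transported by `q ↦ q^d`: the polynomial `Φ_ℓ(j(q^(dℓ)), X)` factors as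
`(X - j(q^(dℓ²))) ∏_b (X - j(ζ^b q^d))`. -/
theorem map_modPoly_qExpand {Φ : Polynomial (Polynomial Kb)} {ζ : Kbˣ}
    (hfac : Φ.map ((Polynomial.aeval (qExpand Kb ℓ (jqModC Kb))).toRingHom) =
      (X - C (qExpand Kb (ℓ ^ 2) (jqModC Kb))) *
        ∏ b ∈ Finset.range ℓ, (X - C (rescaleU (ζ ^ b) (jqModC Kb))))
    (d : ℕ) [NeZero d] (v : LaurentSeries Kb) :
    biEval Φ (qExpand Kb d (qExpand Kb ℓ (jqModC Kb))) v =
      (v - qExpand Kb d (qExpand Kb (ℓ ^ 2) (jqModC Kb))) *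
        ∏ b ∈ Finset.range ℓ, (v - qExpand Kb d (rescaleU (ζ ^ b) (jqModC Kb))) := by
  have h1 := congrArg (Polynomial.map (qExpand Kb d)) hfac
  rw [Polynomial.map_map] at h1
  have h2 : (qExpand Kb d).comp (Polynomial.aeval (qExpand Kb ℓ (jqModC Kb))).toRingHom =
      (Polynomial.aeval (qExpand Kb d (qExpand Kb ℓ (jqModC Kb))) :
        Polynomial Kb →ₐ[Kb] LaurentSeries Kb).toRingHom := by
    refine RingHom.ext fun p => ?_
    show qExpandAlgHomC Kb d (aeval (qExpand Kb ℓ (jqModC Kb)) p) = _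
    rw [← aeval_algHom_apply]
    rfl
  rw [h2] at h1
  unfold biEval
  rw [h1, Polynomial.map_mul, Polynomial.map_sub, map_X, map_C, Polynomial.map_prod, eval_mul,
    eval_sub, eval_X, eval_C, eval_prod]
  congr 1
  refine Finset.prod_congr rfl fun b _ => ?_
  rw [Polynomial.map_sub, map_X, map_C, eval_sub, eval_X, eval_C]

/-- **Slice I-2H.** The second embedding `ρ` of `E = ℚ̄(X₀(N ℓ))` over `β ℚ̄(X₀(N))`, its values on
`α F` and `β F`, and the factorisation of all characteristic polynomials of `E / β F`. -/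
theorem exists_rho_charpoly_bar (hℓ : ℓ.Prime) (hℓN : ¬ ℓ ∣ N) {ζ : Kbˣ} (hζ : orderOf ζ = ℓ) :
    letI := algebraAlong (heckeBetaBar Kb N ℓ)
    haveI := finite_beta hℓ hℓN
    ∃ ρ : ↥(modularFunctionFieldBar (N * ℓ)) →ₐ[Kb] LaurentSeries Kb,
      (∀ g : ↥(modularFunctionFieldBar N),
        ρ (heckeAlphaBar Kb N ℓ g) = qExpand Kb ℓ (qExpand Kb ℓ (g : LaurentSeries Kb)) ∧
        ρ (heckeBetaBar Kb N ℓ g) = qExpand Kb ℓ (g : LaurentSeries Kb)) ∧
      (∀ y, ρ y ∈ Set.range (qExpand Kb ℓ)) ∧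
      ∀ y : ↥(modularFunctionFieldBar (N * ℓ)),
        (LinearMap.charpoly (Algebra.lmul ↥(modularFunctionFieldBar N)
            ↥(modularFunctionFieldBar (N * ℓ)) y)).map
          ((qExpand Kb ℓ).comp (modularFunctionFieldBar N).val.toRingHom) =
        (X - C (ρ y)) * kummerPoly ℓ ζ (y : LaurentSeries Kb) := by
  letI algFE := algebraAlong (heckeBetaBar Kb N ℓ)
  haveI hfin := finite_beta hℓ hℓN
  have hfr : Module.finrank ↥(modularFunctionFieldBar N) ↥(modularFunctionFieldBar (N * ℓ))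
      = ℓ + 1 := Fermat.Agent.S37.ES.DegreeBeta.finrankAlong_beta N hℓ hℓN
  haveI : CharZero ↥(modularFunctionFieldBar N) :=
    charZero_of_injective_algebraMap (algebraMap Kb ↥(modularFunctionFieldBar N)).injective
  set valE : ↥(modularFunctionFieldBar (N * ℓ)) →ₐ[Kb] LaurentSeries Kb :=
    (modularFunctionFieldBar (N * ℓ)).val with hvalE
  set ι : ↥(modularFunctionFieldBar (N * ℓ)) →+* LaurentSeries Kb := valE.toRingHom with hι
  have halg : ∀ a : ↥(modularFunctionFieldBar N),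
      algebraMap ↥(modularFunctionFieldBar N) ↥(modularFunctionFieldBar (N * ℓ)) a =
        heckeBetaBar Kb N ℓ a := fun _ => rfl
  have hF : ∀ a : ↥(modularFunctionFieldBar N),
      ι (algebraMap ↥(modularFunctionFieldBar N) ↥(modularFunctionFieldBar (N * ℓ)) a) ∈
        Set.range (qExpand Kb ℓ) := by
    intro a
    refine ⟨(a : LaurentSeries Kb), ?_⟩
    rw [halg]
    exact (coe_heckeBetaBar N ℓ a).symm
  have hℓ1 : ¬ ℓ ∣ 1 := fun h => hℓ.one_lt.ne' (Nat.dvd_one.1 h)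
  have hE : ∃ y : ↥(modularFunctionFieldBar (N * ℓ)), ι y ∉ Set.range (qExpand Kb ℓ) := by
    refine ⟨jgen (N * ℓ), ?_⟩
    have h1 : ι (jgen (N * ℓ)) = jqModC Kb := Fermat.Agent.S18.B.Basic.coe_jgen_eq (N * ℓ)
    rw [h1]
    have := qExpand_rescaleU_jqModC_not_mem (k := Kb) (ℓ := ℓ) (d := 1) hℓ1 1
    rwa [rescaleU_one, qExpand_one_apply] at this
  obtain ⟨ρ0, hρF, hρmem, hρchar⟩ := exists_rho_charpoly hℓ hζ hfr ι hF hE
  -- `ρ` is `Kb`-linear
  let ρ : ↥(modularFunctionFieldBar (N * ℓ)) →ₐ[Kb] LaurentSeries Kb :=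
    { toRingHom := ρ0
      commutes' := fun c => by
        have h1 : algebraMap Kb ↥(modularFunctionFieldBar (N * ℓ)) c =
            algebraMap ↥(modularFunctionFieldBar N) ↥(modularFunctionFieldBar (N * ℓ))
              (algebraMap Kb ↥(modularFunctionFieldBar N) c) := by
          rw [halg, AlgHom.commutes]
        show ρ0 (algebraMap Kb ↥(modularFunctionFieldBar (N * ℓ)) c) = _
        rw [h1, hρF, ← h1]
        exact valE.commutes c }
  have hρ0 : ∀ y, ρ y = ρ0 y := fun _ => rfl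
  have hρβ : ∀ g : ↥(modularFunctionFieldBar N),
      ρ (heckeBetaBar Kb N ℓ g) = qExpand Kb ℓ (g : LaurentSeries Kb) := by
    intro g
    rw [hρ0, ← halg, hρF, halg]
    exact coe_heckeBetaBar N ℓ g
  -- root selection on the generators
  obtain ⟨Φ, -, -, hfac⟩ := Fermat.Agent.S28.ModPolyPrime.hasModPoly Kb ℓ hℓ
  have hζ' : IsPrimitiveRoot ζ ℓ := by
    have := IsPrimitiveRoot.orderOf ζ
    rwa [hζ] at this
  have hfacζ := hfac ζ hζ'
  have hρα_gen : ∀ d : {d : ℕ // d ∣ N},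
      ρ (heckeAlphaBar Kb N ℓ (jdivF N d)) =
        qExpand Kb ℓ (qExpand Kb ℓ ((jdivF N d : ↥(modularFunctionFieldBar N)) :
          LaurentSeries Kb)) := by
    intro d
    haveI : NeZero d.1 := neZero_of_dvd d.2
    have hℓd : ¬ ℓ ∣ d.1 := fun h => hℓN (h.trans d.2)
    set jd : ↥(modularFunctionFieldBar N) := jdivF N d with hjd
    have hcoe : (jd : LaurentSeries Kb) = qExpand Kb d.1 (jqModC Kb) := coe_jdivF N d
    -- the relation `Φ(β j_d, α j_d) = 0` in `E`
    have hvalβ : valE (heckeBetaBar Kb N ℓ jd) =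
        qExpand Kb d.1 (qExpand Kb ℓ (jqModC Kb)) := by
      have : valE (heckeBetaBar Kb N ℓ jd) = qExpand Kb ℓ (jd : LaurentSeries Kb) :=
        coe_heckeBetaBar N ℓ jd
      rw [this, hcoe, qExpand_qExpand, qExpand_qExpand]
      exact qExpand_congr (mul_comm _ _) _
    have hvalα : valE (heckeAlphaBar Kb N ℓ jd) = qExpand Kb d.1 (jqModC Kb) := by
      have : valE (heckeAlphaBar Kb N ℓ jd) = (jd : LaurentSeries Kb) :=
        coe_heckeAlphaBar N ℓ jd
      rw [this, hcoe]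
    have hrelE : biEval Φ (heckeBetaBar Kb N ℓ jd) (heckeAlphaBar Kb N ℓ jd) = 0 := by
      have hinj : Function.Injective valE := valE.toRingHom.injective
      apply hinj
      rw [map_biEval, hvalβ, hvalα, map_zero, map_modPoly_qExpand hfacζ]
      refine mul_eq_zero_of_right _ (Finset.prod_eq_zero (Finset.mem_range.2 hℓ.pos) ?_)
      rw [pow_zero, rescaleU_one, sub_self]
    -- apply `ρ`
    have hrelρ := congrArg ρ hrelE
    rw [map_biEval, map_zero, hρβ, hcoe] at hrelρ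
    have hβd : qExpand Kb ℓ (qExpand Kb d.1 (jqModC Kb)) =
        qExpand Kb d.1 (qExpand Kb ℓ (jqModC Kb)) := by
      rw [qExpand_qExpand, qExpand_qExpand]
      exact qExpand_congr (mul_comm _ _) _
    rw [hβd, map_modPoly_qExpand hfacζ] at hrelρ
    rcases mul_eq_zero.1 hrelρ with h0 | h0
    · rw [sub_eq_zero] at h0
      rw [h0, hcoe, qExpand_qExpand, qExpand_qExpand, qExpand_qExpand]
      exact qExpand_congr (by ring) _
    · exfalso
      obtain ⟨b, -, hb⟩ := Finset.prod_eq_zero_iff.1 h0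
      rw [sub_eq_zero] at hb
      have hmem := hρmem (heckeAlphaBar Kb N ℓ jd)
      rw [← hρ0, hb] at hmem
      exact qExpand_rescaleU_jqModC_not_mem hℓd _ hmem
  have hρα : ∀ g : ↥(modularFunctionFieldBar N),
      ρ (heckeAlphaBar Kb N ℓ g) = qExpand Kb ℓ (qExpand Kb ℓ (g : LaurentSeries Kb)) := by
    have := algHom_ext_jdivF N (ρ.comp (heckeAlphaBar Kb N ℓ))
      (((qExpandAlgHomC Kb ℓ).comp (qExpandAlgHomC Kb ℓ)).comp (modularFunctionFieldBar N).val)
      hρα_gen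
    intro g
    exact DFunLike.congr_fun this g
  refine ⟨ρ, fun g => ⟨hρα g, hρβ g⟩, hρmem, fun y => ?_⟩
  have hhom : (qExpand Kb ℓ).comp (modularFunctionFieldBar N).val.toRingHom =
      ι.comp (algebraMap ↥(modularFunctionFieldBar N) ↥(modularFunctionFieldBar (N * ℓ))) := by
    refine RingHom.ext fun a => ?_
    show qExpand Kb ℓ (a : LaurentSeries Kb) = valE (heckeBetaBar Kb N ℓ a)
    exact (coe_heckeBetaBar N ℓ a).symm
  rw [hhom]
  exact hρchar y

/-- **(Hrho)**: the second embedding alone, in the shape consumed by `ES/NormAlpha`. -/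
theorem exists_rho (hℓ : ℓ.Prime) (hℓN : ¬ ℓ ∣ N) :
    ∃ ρ : ↥(modularFunctionFieldBar (N * ℓ)) →ₐ[Kb] LaurentSeries Kb,
      ∀ g : ↥(modularFunctionFieldBar N),
        ρ (heckeAlphaBar Kb N ℓ g) = qExpand Kb ℓ (qExpand Kb ℓ (g : LaurentSeries Kb)) ∧
        ρ (heckeBetaBar Kb N ℓ g) = qExpand Kb ℓ (g : LaurentSeries Kb) := by
  have hℓk : ((ℓ : ℕ) : Kb) ≠ 0 := Nat.cast_ne_zero.mpr hℓ.ne_zero
  obtain ⟨ζ, hζ⟩ := Fermat.Agent.S28.StepDeg.exists_isPrimitiveRoot_units (k := Kb) (p := ℓ) hℓk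
  obtain ⟨ρ, h, -, -⟩ := exists_rho_charpoly_bar (N := N) hℓ hℓN hζ.eq_orderOf.symm
  exact ⟨ρ, h⟩

end Main

end Fermat.Agent.S37.ES.HeckeRho
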