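import Mathlib
import Fermat.Prelude.Def_ModularCurve_HeckeOperatorTotal
import Fermat.Agent.S24.AllPlaces
import Fermat.Agent.S28.LaurentRescale
import Fermat.Agent.S28.Step.Orders
import Fermat.Agent.S37.ES.DegreeBeta
import Fermat.Agent.S37.Hecke.Integral

/-!
# PROJECT I (S37), slice I-2N (1): the norm along `α` of `β u`, in characteristic zero

`F = ℚ̄(X₀(N))`, `E = ℚ̄(X₀(N ℓ))` inside `Ω = ℚ̄((q))`, `α : F → E` the inclusion, `β : F → E` the
substitution `V : q ↦ q^ℓ`, `ℓ` a prime not dividing `N`.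

HYPOTHESIS `HasRho N ℓ` (= the output of the Kummer splitting (H2) + root selection (H3)): a ring
homomorphism `ρ : E → Ω` with `ρ (α x) = V (V x)` and `ρ (β x) = V x` for all `x ∈ F`.

THEOREM `qExpand_norm_beta`: for every `u ∈ F` and every primitive `ℓ`-th root of unity `ζ`,
`V (N_{E/αF} (β u)) = V (V u) * ∏_{b < ℓ} u(ζ^b q)`, i.e.
`N_{E/αF} (β u) = u(q^ℓ) * ∏_{b < ℓ} u(ζ^b q^{1/ℓ})`.

Proof: for `ξ^ℓ = ζ` the `ℓ + 1` ring homs `V ∘ V` and `(q ↦ ξ^b q) ∘ ρ` (`b < ℓ`) from `E` to `Ω` are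
pairwise distinct and all restrict to `V ∘ V` on `αF`; `[E : αF] = ℓ + 1` (`DegreeBeta`).
-/

set_option autoImplicit false
set_option linter.unusedSectionVars false
set_option linter.style.haveILetI false

noncomputable section

namespace Fermat.Agent.S37.ES.NormAlpha

open ModularCurve IntermediateField AlgebraicCurve HahnSeries
open Fermat.Agent.S28.LaurentRescale Fermat.Agent.S28.StepDeg

local notation "Kb" => AlgebraicClosure ℚ

variable (N ℓ : ℕ) [NeZero N] [NeZero ℓ]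

/-- The second embedding of `ℚ̄(X₀(N ℓ))` over `β ℚ̄(X₀(N))` into `ℚ̄((q^ℓ))`, with its values on
`α ℚ̄(X₀(N))` (Kummer splitting + root selection). -/
def HasRho : Prop :=
  ∃ ρ : ↥(modularFunctionFieldBar (N * ℓ)) →+* LaurentSeries Kb,
    (∀ x : ↥(modularFunctionFieldBar N),
      ρ (heckeAlphaBar Kb N ℓ x) = qExpand Kb ℓ (qExpand Kb ℓ (x : LaurentSeries Kb))) ∧
    (∀ x : ↥(modularFunctionFieldBar N),
      ρ (heckeBetaBar Kb N ℓ x) = qExpand Kb ℓ (x : LaurentSeries Kb))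

/-- The `AlgHom` shape (one conjunction per element) in which `ES/HeckeRho` delivers `ρ`. -/
theorem hasRho_of_algHom
    (h : ∃ ρ : ↥(modularFunctionFieldBar (N * ℓ)) →ₐ[Kb] LaurentSeries Kb,
      ∀ g : ↥(modularFunctionFieldBar N),
        ρ (heckeAlphaBar Kb N ℓ g) = qExpand Kb ℓ (qExpand Kb ℓ (g : LaurentSeries Kb)) ∧
        ρ (heckeBetaBar Kb N ℓ g) = qExpand Kb ℓ (g : LaurentSeries Kb)) :
    HasRho N ℓ := by
  obtain ⟨ρ, hρ⟩ := h
  exact ⟨ρ.toRingHom, fun x => (hρ x).1, fun x => (hρ x).2⟩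

section Series

variable {k : Type*} [Field k]

/-- `q ↦ ξ q` after `q ↦ q^ℓ` twice, for `ξ^(ℓ^2) = 1`. -/
theorem rescaleU_qExpand_qExpand {ξ : kˣ} (hξ : (ξ ^ ℓ) ^ ℓ = 1) (f : LaurentSeries k) :
    rescaleU ξ (qExpand k ℓ (qExpand k ℓ f)) = qExpand k ℓ (qExpand k ℓ f) := by
  rw [rescaleU_qExpand, rescaleU_qExpand, hξ, rescaleU_one]

theorem rescaleU_pow_qExpand_qExpand {ξ : kˣ} (hξ : (ξ ^ ℓ) ^ ℓ = 1) (b : ℕ) (f : LaurentSeries k) :
    rescaleU (ξ ^ b) (qExpand k ℓ (qExpand k ℓ f)) = qExpand k ℓ (qExpand k ℓ f) := by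
  apply rescaleU_qExpand_qExpand
  have h : ((ξ ^ b) ^ ℓ) ^ ℓ = ((ξ ^ ℓ) ^ ℓ) ^ b := by
    rw [← pow_mul, ← pow_mul, ← pow_mul, ← pow_mul]
    congr 1
    ring
  rw [h, hξ, one_pow]

theorem rescaleU_pow_qExpand {ξ ζ : kˣ} (hξ : ξ ^ ℓ = ζ) (b : ℕ) (f : LaurentSeries k) :
    rescaleU (ξ ^ b) (qExpand k ℓ f) = qExpand k ℓ (rescaleU (ζ ^ b) f) := by
  rw [rescaleU_qExpand, ← pow_mul, mul_comm, pow_mul, hξ]

end Series

section Main

variable {N ℓ}

/-- The family of `ℓ + 1` embeddings. -/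
def emb (ρ : ↥(modularFunctionFieldBar (N * ℓ)) →+* LaurentSeries Kb) (ξ : Kbˣ) :
    Option (Fin ℓ) → (↥(modularFunctionFieldBar (N * ℓ)) →+* LaurentSeries Kb)
  | none => ((qExpand Kb ℓ).comp (qExpand Kb ℓ)).comp (modularFunctionFieldBar (N * ℓ)).val
  | some b => ((rescaleU (ξ ^ (b : ℕ)) : LaurentSeries Kb ≃+* LaurentSeries Kb) :
      LaurentSeries Kb →+* LaurentSeries Kb).comp ρ

theorem emb_none (ρ : ↥(modularFunctionFieldBar (N * ℓ)) →+* LaurentSeries Kb) (ξ : Kbˣ)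
    (y : ↥(modularFunctionFieldBar (N * ℓ))) :
    emb ρ ξ none y = qExpand Kb ℓ (qExpand Kb ℓ (y : LaurentSeries Kb)) := rfl

theorem emb_some (ρ : ↥(modularFunctionFieldBar (N * ℓ)) →+* LaurentSeries Kb) (ξ : Kbˣ)
    (b : Fin ℓ) (y : ↥(modularFunctionFieldBar (N * ℓ))) :
    emb ρ ξ (some b) y = rescaleU (ξ ^ (b : ℕ)) (ρ y) := rfl

/-- **The norm along `α` of `β u`** (characteristic zero, exact). -/
theorem qExpand_norm_beta (hℓ : ℓ.Prime) (hℓN : ¬ ℓ ∣ N) (hρ : HasRho N ℓ) {ζ : Kbˣ}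
    (hζ : IsPrimitiveRoot ζ ℓ) (u : ↥(modularFunctionFieldBar N)) :
    letI := algebraAlong (heckeAlphaBar Kb N ℓ)
    qExpand Kb ℓ ((Algebra.norm ↥(modularFunctionFieldBar N) (heckeBetaBar Kb N ℓ u) :
        ↥(modularFunctionFieldBar N)) : LaurentSeries Kb) =
      qExpand Kb ℓ (qExpand Kb ℓ (u : LaurentSeries Kb)) *
        ∏ b ∈ Finset.range ℓ, rescaleU (ζ ^ b) (u : LaurentSeries Kb) := by
  classical
  letI := algebraAlong (heckeAlphaBar Kb N ℓ)
  obtain ⟨ρ, hρα, hρβ⟩ := hρ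
  -- a root `ξ` of `ζ`
  obtain ⟨ξ0, hξ0⟩ := IsAlgClosed.exists_pow_nat_eq (ζ : Kb) hℓ.pos
  have hξ0ne : ξ0 ≠ 0 := by
    rintro rfl
    rw [zero_pow hℓ.ne_zero] at hξ0
    exact ζ.ne_zero hξ0.symm
  set ξ : Kbˣ := Units.mk0 ξ0 hξ0ne with hξdef
  have hξ : ξ ^ ℓ = ζ := Units.ext (by rw [Units.val_pow_eq_pow_val]; exact hξ0)
  have hζℓ : ζ ^ ℓ = 1 := hζ.pow_eq_one
  have hξ2 : (ξ ^ ℓ) ^ ℓ = 1 := by rw [hξ, hζℓ]
  -- finiteness, separability, degree
  haveI : Module.Finite ↥(modularFunctionFieldBar N) ↥(modularFunctionFieldBar (N * ℓ)) :=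
    Fermat.Agent.S37.Hecke.Integral.finiteAlong_alpha N ℓ
  haveI : FiniteDimensional ↥(modularFunctionFieldBar N) ↥(modularFunctionFieldBar (N * ℓ)) :=
    this
  haveI : Algebra.IsSeparable ↥(modularFunctionFieldBar N) ↥(modularFunctionFieldBar (N * ℓ)) :=
    Algebra.IsAlgebraic.isSeparable_of_perfectField
  have hdeg : Module.finrank ↥(modularFunctionFieldBar N) ↥(modularFunctionFieldBar (N * ℓ))
      = ℓ + 1 := Fermat.Agent.S37.ES.DegreeBeta.finrankAlong_alpha N hℓ hℓN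
  have hcard : Fintype.card (Option (Fin ℓ)) =
      Module.finrank ↥(modularFunctionFieldBar N) ↥(modularFunctionFieldBar (N * ℓ)) := by
    rw [hdeg, Fintype.card_option, Fintype.card_fin]
  -- the base homomorphism
  set L0 : ↥(modularFunctionFieldBar N) →+* LaurentSeries Kb :=
    ((qExpand Kb ℓ).comp (qExpand Kb ℓ)).comp (modularFunctionFieldBar N).val with hL0
  have halg : ∀ y : ↥(modularFunctionFieldBar N),
      algebraMap ↥(modularFunctionFieldBar N) ↥(modularFunctionFieldBar (N * ℓ)) y =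
        heckeAlphaBar Kb N ℓ y := fun _ => rfl
  have hbase : ∀ (q : Option (Fin ℓ)) (y : ↥(modularFunctionFieldBar N)),
      emb ρ ξ q (algebraMap ↥(modularFunctionFieldBar N) ↥(modularFunctionFieldBar (N * ℓ)) y)
        = L0 y := by
    intro q y
    rw [halg]
    cases q with
    | none =>
      rw [emb_none, coe_heckeAlphaBar]
      rfl
    | some b =>
      rw [emb_some, hρα, rescaleU_pow_qExpand_qExpand ℓ hξ2]
      rfl
  -- the values at `β j`
  set j : ↥(modularFunctionFieldBar N) := Fermat.Agent.S24.DegreeAlg.jgen N with hj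
  have hjcoe : (j : LaurentSeries Kb) = jqModC Kb := Fermat.Agent.S18.B.Basic.coe_jgen_eq N
  have hval_none : emb ρ ξ none (heckeBetaBar Kb N ℓ j) =
      qExpand Kb ℓ (qExpand Kb ℓ (qExpand Kb ℓ (jqModC Kb))) := by
    rw [emb_none, coe_heckeBetaBar, hjcoe]
  have hval_some : ∀ b : Fin ℓ, emb ρ ξ (some b) (heckeBetaBar Kb N ℓ j) =
      qExpand Kb ℓ (rescaleU (ζ ^ (b : ℕ)) (jqModC Kb)) := by
    intro b
    rw [emb_some, hρβ, rescaleU_pow_qExpand ℓ hξ, hjcoe]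
  have hinj : Function.Injective (emb ρ ξ) := by
    intro a b hab
    have h1 := congrArg (fun f : ↥(modularFunctionFieldBar (N * ℓ)) →+* LaurentSeries Kb =>
      f (heckeBetaBar Kb N ℓ j)) hab
    beta_reduce at h1
    have hℓ2 : (2 : ℤ) ≤ ℓ := by exact_mod_cast hℓ.two_le
    have hord_some : ∀ b : Fin ℓ,
        (qExpand Kb ℓ (rescaleU (ζ ^ (b : ℕ)) (jqModC Kb))).order = -(ℓ : ℤ) := by
      intro b
      rw [order_qExpand, order_rescaleU_jqModC]
      ring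
    have hord_none :
        (qExpand Kb ℓ (qExpand Kb ℓ (qExpand Kb ℓ (jqModC Kb)))).order
          = -((ℓ : ℤ) * ((ℓ : ℤ) * (ℓ : ℤ))) := by
      rw [order_qExpand, order_qExpand, order_qExpand, order_jqModC]
      ring
    have hne : ∀ b : Fin ℓ, qExpand Kb ℓ (qExpand Kb ℓ (qExpand Kb ℓ (jqModC Kb))) ≠
        qExpand Kb ℓ (rescaleU (ζ ^ (b : ℕ)) (jqModC Kb)) := by
      intro b h
      have := congrArg HahnSeries.order h
      rw [hord_none, hord_some] at this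
      nlinarith
    cases a with
    | none =>
      cases b with
      | none => rfl
      | some b =>
        rw [hval_none, hval_some] at h1
        exact absurd h1 (hne b)
    | some a =>
      cases b with
      | none =>
        rw [hval_none, hval_some] at h1
        exact absurd h1.symm (hne a)
      | some b =>
        rw [hval_some, hval_some] at h1
        have h2 := qExpand_injective ℓ h1
        have h3 : ζ ^ (a : ℕ) = ζ ^ (b : ℕ) :=
          eq_of_rescaleU_eq (by rw [coeff_jqModC_neg_one Kb]; exact one_ne_zero) h2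
        have h4 : (a : ℕ) = (b : ℕ) := hζ.pow_inj a.2 b.2 h3
        exact congrArg some (Fin.ext h4)
  have hnorm := Fermat.Agent.S24.AllPlaces.map_norm_eq_prod (emb ρ ξ) hinj hcard L0 hbase
    (heckeBetaBar Kb N ℓ u)
  rw [Fintype.prod_option, emb_none, coe_heckeBetaBar] at hnorm
  have hsome : ∀ b : Fin ℓ, emb ρ ξ (some b) (heckeBetaBar Kb N ℓ u) =
      qExpand Kb ℓ (rescaleU (ζ ^ (b : ℕ)) (u : LaurentSeries Kb)) := by
    intro b
    rw [emb_some, hρβ, rescaleU_pow_qExpand ℓ hξ]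
  rw [Finset.prod_congr rfl (fun b _ => hsome b),
    Fin.prod_univ_eq_prod_range (fun b => qExpand Kb ℓ (rescaleU (ζ ^ b) (u : LaurentSeries Kb))) ℓ,
    ← map_prod, ← map_mul] at hnorm
  exact qExpand_injective ℓ hnorm

end Main

end Fermat.Agent.S37.ES.NormAlpha
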