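import Mathlib
import Fermat.Agent.S18.GaussFromH
import Fermat.Agent.S37.ES.NormAlpha
import Fermat.Agent.S37.ES.KummerPoly
import Fermat.Agent.S37.Equivariance.CoeffAut

/-!
# PROJECT I (S37), slice I-2N (2): integrality and reduction of the norm `N_{E/αF} (β u)`

Pure series part (`R` a commutative ring, `ζ : Rˣ`): `conjProd ζ ℓ y = ∏_{b < ℓ} y(ζ^b q)`,
`normSeries ζ ℓ y = y(q^ℓ) * (conjProd ζ ℓ y)(q^{1/ℓ})`, compatible with coefficient maps; for `ζ = 1`
in characteristic `ℓ`: `normSeries 1 ℓ z = z(q^ℓ) * z^Frob`.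

Gauss part (language of `S18/GaussFromH`: `A : ValuationSubring ℚ̄`, `π : A →+* k`, `char k = ℓ`, `k`
perfect, `ℓ ∤ N` prime, `HasRho N ℓ`):

* `exists_normI` : for `a ∈ intRing A π N` there is `a' ∈ intRing A π N` with
  `toFL a' = N_{E/αF} (β (toFL a))` and `red a' = (red a)(q^ℓ) * (red a)^Frob`;
* `norm_beta_rep` : `f * toFL b = c * toFL a ⟹ N(β f) * toFL b' = c^(ℓ+1) * toFL a'`;
* `redV_norm_beta` : for a Gauss unit `u` (any `hrep`), `N(β u)` is a Gauss unit and
  `redV (N(β u)) = Frob (redV u) * (Frob⁻¹ (redV u))^ℓ` (`Frob = CoeffAut.coeffRingAut (frobAut k ℓ)`).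
-/

set_option autoImplicit false
set_option linter.unusedSectionVars false
set_option linter.style.haveILetI false

noncomputable section

namespace Fermat.Agent.S37.ES.NormRed

open ModularCurve HahnSeries AlgebraicCurve
open Fermat.Agent.S28.LaurentRescale Fermat.Agent.S18.GaussFromH
open Fermat.Agent.S37.ES.NormAlpha Fermat.Agent.S37.ES.KummerPoly
open Fermat.Agent.S37.Equivariance.CoeffAut

/-! ### Series -/

section Series

variable {R : Type*} [CommRing R]

theorem prod_range_succ_shift {M : Type*} [CommMonoid M] (f : ℕ → M) (n : ℕ) (h : f n = f 0) :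
    ∏ b ∈ Finset.range n, f (b + 1) = ∏ b ∈ Finset.range n, f b := by
  cases n with
  | zero => simp
  | succ m => rw [Finset.prod_range_succ, Finset.prod_range_succ', h]

/-- `∏_{b < ℓ} y(ζ^b q)`. -/
def conjProd (ζ : Rˣ) (ℓ : ℕ) (y : LaurentSeries R) : LaurentSeries R :=
  ∏ b ∈ Finset.range ℓ, rescaleU (ζ ^ b) y

theorem rescaleU_conjProd {ζ : Rˣ} {ℓ : ℕ} (hζ : ζ ^ ℓ = 1) (y : LaurentSeries R) :
    rescaleU ζ (conjProd ζ ℓ y) = conjProd ζ ℓ y := by
  unfold conjProd
  rw [map_prod]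
  have h : ∀ b : ℕ, rescaleU ζ (rescaleU (ζ ^ b) y) = rescaleU (ζ ^ (b + 1)) y := by
    intro b
    rw [← rescaleU_mul, pow_succ']
  rw [Finset.prod_congr rfl (fun b _ => h b)]
  exact prod_range_succ_shift (fun b => rescaleU (ζ ^ b) y) ℓ (by simp [hζ])

theorem conjProd_mem_range [IsDomain R] {ℓ : ℕ} [NeZero ℓ] {ζ : Rˣ} (hζ : orderOf ζ = ℓ)
    (y : LaurentSeries R) : conjProd ζ ℓ y ∈ Set.range (qExpand R ℓ) :=
  (rescaleU_eq_self_iff ℓ hζ _).mp (rescaleU_conjProd (by rw [← hζ, pow_orderOf_eq_one]) y)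

theorem coeffMap_conjProd {S : Type*} [CommRing S] (φ : R →+* S) (ζ : Rˣ) (ℓ : ℕ)
    (y : LaurentSeries R) :
    coeffMap φ (conjProd ζ ℓ y) = conjProd (Units.map φ.toMonoidHom ζ) ℓ (coeffMap φ y) := by
  unfold conjProd
  rw [map_prod]
  refine Finset.prod_congr rfl fun b _ => ?_
  rw [coeffMap_rescaleU, map_pow]

theorem conjProd_one (ℓ : ℕ) (y : LaurentSeries R) : conjProd (1 : Rˣ) ℓ y = y ^ ℓ := by
  unfold conjProd
  simp

theorem coeffMap_qContract {S : Type*} [CommRing S] (φ : R →+* S) (ℓ : ℕ) [NeZero ℓ]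
    (f : LaurentSeries R) : coeffMap φ (qContract ℓ f) = qContract ℓ (coeffMap φ f) := by
  ext n
  rw [coeffMap_coeff, coeff_qContract, coeff_qContract, coeffMap_coeff]

/-- `y(q^ℓ) * (∏_b y(ζ^b q))(q^{1/ℓ})`. -/
def normSeries (ζ : Rˣ) (ℓ : ℕ) [NeZero ℓ] (y : LaurentSeries R) : LaurentSeries R :=
  qExpand R ℓ y * qContract ℓ (conjProd ζ ℓ y)

theorem qExpand_normSeries [IsDomain R] {ℓ : ℕ} [NeZero ℓ] {ζ : Rˣ} (hζ : orderOf ζ = ℓ)
    (y : LaurentSeries R) :
    qExpand R ℓ (normSeries ζ ℓ y) = qExpand R ℓ (qExpand R ℓ y) * conjProd ζ ℓ y := by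
  unfold normSeries
  rw [map_mul, qExpand_qContract ℓ ((mem_range_qExpand_iff ℓ _).mp (conjProd_mem_range hζ y))]

theorem coeffMap_normSeries {S : Type*} [CommRing S] (φ : R →+* S) (ζ : Rˣ) (ℓ : ℕ) [NeZero ℓ]
    (y : LaurentSeries R) :
    coeffMap φ (normSeries ζ ℓ y) = normSeries (Units.map φ.toMonoidHom ζ) ℓ (coeffMap φ y) := by
  unfold normSeries
  rw [map_mul, coeffMap_qExpand, coeffMap_qContract, coeffMap_conjProd]

theorem normSeries_one_char {k : Type*} [CommRing k] (ℓ : ℕ) [hℓ : Fact ℓ.Prime] [NeZero ℓ]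
    [CharP k ℓ] (z : LaurentSeries k) :
    normSeries (1 : kˣ) ℓ z = qExpand k ℓ z * coeffMap (frobenius k ℓ) z := by
  unfold normSeries
  rw [conjProd_one, pow_char_eq_qExpand ℓ z, qContract_qExpand]

end Series

/-! ### Roots of unity in a valuation subring -/

section Roots

variable {K : Type*} [Field K] (A : ValuationSubring K)

theorem mem_of_pow_eq_one {x : K} {n : ℕ} (hn : 0 < n) (hx : x ^ n = 1) : x ∈ A := by
  rcases A.mem_or_inv_mem x with h | h
  · exact h
  · have h1 : (x⁻¹) ^ (n - 1) * x⁻¹ = 1 := by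
      rw [← pow_succ, Nat.sub_add_cancel hn, inv_pow, hx, inv_one]
    have h2 : (x⁻¹) ^ (n - 1) = x := by
      rw [eq_inv_of_mul_eq_one_left h1, inv_inv]
    rw [← h2]
    exact pow_mem h _

theorem exists_unit_of_isPrimitiveRoot {ζ : Kˣ} {n : ℕ} (hn : 0 < n) (hζ : IsPrimitiveRoot ζ n) :
    ∃ ζA : (↥A)ˣ, Units.map (A.subtype : ↥A →+* K).toMonoidHom ζA = ζ ∧ orderOf ζA = n := by
  have h1 : (ζ : K) ∈ A :=
    mem_of_pow_eq_one A hn (by rw [← Units.val_pow_eq_pow_val, hζ.pow_eq_one, Units.val_one])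
  have h2 : ((ζ⁻¹ : Kˣ) : K) ∈ A :=
    mem_of_pow_eq_one A hn (by
      rw [← Units.val_pow_eq_pow_val, inv_pow, hζ.pow_eq_one, inv_one, Units.val_one])
  refine ⟨⟨⟨ζ, h1⟩, ⟨((ζ⁻¹ : Kˣ) : K), h2⟩, Subtype.ext (by simp), Subtype.ext (by simp)⟩, ?_, ?_⟩
  · exact Units.ext rfl
  · have hinj : Function.Injective (Units.map (A.subtype : ↥A →+* K).toMonoidHom) :=
      Units.map_injective A.subtype_injective
    rw [← orderOf_injective (Units.map (A.subtype : ↥A →+* K).toMonoidHom) hinj]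
    have : Units.map (A.subtype : ↥A →+* K).toMonoidHom
        ⟨⟨ζ, h1⟩, ⟨((ζ⁻¹ : Kˣ) : K), h2⟩, Subtype.ext (by simp), Subtype.ext (by simp)⟩ = ζ :=
      Units.ext rfl
    rw [this]
    exact hζ.eq_orderOf.symm

end Roots

/-! ### The Gauss datum -/

section Main

local notation "Kb" => AlgebraicClosure ℚ

variable {N ℓ : ℕ} [NeZero N] [NeZero ℓ] (A : ValuationSubring Kb) {k : Type*} [Field k]
  (π : ↥A →+* k)

/-- `N_{E/αF} (β f)` for `f ∈ F = ℚ̄(X₀(N))`. -/
def normBeta (N ℓ : ℕ) [NeZero N] [NeZero ℓ]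
    (f : ↥(laurentBaseChange Kb (modularFunctionFieldFull N))) :
    ↥(laurentBaseChange Kb (modularFunctionFieldFull N)) :=
  letI := algebraAlong (heckeAlphaBar Kb N ℓ)
  Algebra.norm ↥(laurentBaseChange Kb (modularFunctionFieldFull N)) (heckeBetaBar Kb N ℓ f)

theorem normBeta_def (f : ↥(laurentBaseChange Kb (modularFunctionFieldFull N))) :
    letI := algebraAlong (heckeAlphaBar Kb N ℓ)
    normBeta N ℓ f =
      Algebra.norm ↥(laurentBaseChange Kb (modularFunctionFieldFull N))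
        (heckeBetaBar Kb N ℓ f) := rfl

theorem normBeta_mul (f g : ↥(laurentBaseChange Kb (modularFunctionFieldFull N))) :
    normBeta N ℓ (f * g) = normBeta N ℓ f * normBeta N ℓ g := by
  unfold normBeta
  rw [map_mul, map_mul]

/-- In characteristic `ℓ` (perfect): `x(q^ℓ) ∈ F_k` for `x ∈ F_k`. -/
theorem qExpand_mem_fullC [hℓ : Fact ℓ.Prime] [CharP k ℓ] [PerfectField k] {x : LaurentSeries k}
    (hx : x ∈ modularFunctionFieldFullC k N) : qExpand k ℓ x ∈ modularFunctionFieldFullC k N := by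
  set z : LaurentSeries k := coeffMap ((frobeniusEquiv k ℓ).symm : k →+* k) x with hz
  have hzmem : z ∈ modularFunctionFieldFullC k N := coeffMap_mem_fullC _ hx
  have h1 : z ^ ℓ = qExpand k ℓ x := by
    rw [pow_char_eq_qExpand ℓ z, hz, coeffMap_coeffMap]
    congr 1
    rw [coeffMap_congr (g := RingHom.id k) (RingHom.ext fun c => ?_), coeffMap_id]
    show frobenius k ℓ ((frobeniusEquiv k ℓ).symm c) = c
    exact frobenius_apply_frobeniusEquiv_symm k ℓ c
  rw [← h1]
  exact pow_mem hzmem ℓ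

/-- **Integrality and reduction of the norm.** -/
theorem exists_normI [hℓF : Fact ℓ.Prime] (hℓN : ¬ ℓ ∣ N) (hρ : HasRho N ℓ) [CharP k ℓ]
    [PerfectField k] (a : ↥(intRing A π N)) :
    ∃ a' : ↥(intRing A π N),
      toFL A π N a' = normBeta N ℓ (toFL A π N a) ∧
      ((red A π N a' : ↥(modularFunctionFieldFullC k N)) : LaurentSeries k) =
        qExpand k ℓ ((red A π N a : ↥(modularFunctionFieldFullC k N)) : LaurentSeries k) *
          coeffMap (frobenius k ℓ)
            ((red A π N a : ↥(modularFunctionFieldFullC k N)) : LaurentSeries k) := by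
  have hℓ : ℓ.Prime := hℓF.out
  letI := algebraAlong (heckeAlphaBar Kb N ℓ)
  have hℓk : ((ℓ : ℕ) : Kb) ≠ 0 := Nat.cast_ne_zero.mpr hℓ.ne_zero
  obtain ⟨ζ, hζ⟩ := Fermat.Agent.S28.StepDeg.exists_isPrimitiveRoot_units (k := Kb) (p := ℓ) hℓk
  obtain ⟨ζA, hζA, hord⟩ := exists_unit_of_isPrimitiveRoot A hℓ.pos hζ
  set y : LaurentSeries ↥A := a.1 with hy
  set s : LaurentSeries ↥A := normSeries ζA ℓ y with hs
  set nm : ↥(laurentBaseChange Kb (modularFunctionFieldFull N)) :=
    normBeta N ℓ (toFL A π N a) with hnm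
  -- characteristic zero
  have hL : coeffMap A.subtype s = (nm : LaurentSeries Kb) := by
    apply qExpand_injective ℓ
    have h1 := qExpand_norm_beta hℓ hℓN hρ hζ (toFL A π N a)
    rw [← coeffMap_qExpand, hs, qExpand_normSeries hord, map_mul, coeffMap_qExpand,
      coeffMap_qExpand, coeffMap_conjProd, hζA]
    rw [coe_toFL] at h1
    exact h1.symm
  -- characteristic `ℓ`
  have hπζ : Units.map (π : ↥A →+* k).toMonoidHom ζA = 1 := by
    apply Units.ext
    show π (ζA : ↥A) = 1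
    refine eq_one_of_pow_char_eq_one ℓ ?_
    rw [← map_pow, ← Units.val_pow_eq_pow_val, ← hord, pow_orderOf_eq_one, Units.val_one, map_one]
  have hk : coeffMap π s =
      qExpand k ℓ (coeffMap π y) * coeffMap (frobenius k ℓ) (coeffMap π y) := by
    rw [hs, coeffMap_normSeries, hπζ, normSeries_one_char]
  have hmemL : coeffMap A.subtype s ∈ laurentBaseChange Kb (modularFunctionFieldFull N) := by
    rw [hL]
    exact nm.2
  have hmemk : coeffMap π s ∈ modularFunctionFieldFullC k N := by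
    rw [hk]
    exact mul_mem (qExpand_mem_fullC a.2.2) (coeffMap_mem_fullC _ a.2.2)
  refine ⟨⟨s, hmemL, hmemk⟩, Subtype.ext ?_, ?_⟩
  · rw [coe_toFL]
    exact hL
  · rw [coe_red, coe_red]
    exact hk

/-- `q ↦ q^ℓ` as an endomorphism of `F_k` (characteristic `ℓ`, `k` perfect). -/
def Vk (N ℓ : ℕ) [NeZero N] [NeZero ℓ] (k : Type*) [Field k] [Fact ℓ.Prime] [CharP k ℓ]
    [PerfectField k] :
    ↥(modularFunctionFieldFullC k N) →+* ↥(modularFunctionFieldFullC k N) where
  toFun x := ⟨qExpand k ℓ (x : LaurentSeries k), qExpand_mem_fullC x.2⟩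
  map_one' := Subtype.ext (map_one (qExpand k ℓ))
  map_mul' _ _ := Subtype.ext (map_mul (qExpand k ℓ) _ _)
  map_zero' := Subtype.ext (map_zero (qExpand k ℓ))
  map_add' _ _ := Subtype.ext (map_add (qExpand k ℓ) _ _)

@[simp]
theorem coe_Vk [Fact ℓ.Prime] [CharP k ℓ] [PerfectField k] (x : ↥(modularFunctionFieldFullC k N)) :
    ((Vk N ℓ k x : ↥(modularFunctionFieldFullC k N)) : LaurentSeries k) =
      qExpand k ℓ (x : LaurentSeries k) := rfl

/-- `x(q^ℓ) = (Frob⁻¹ x)^ℓ`. -/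
theorem Vk_eq [Fact ℓ.Prime] [CharP k ℓ] [PerfectField k] (x : ↥(modularFunctionFieldFullC k N)) :
    Vk N ℓ k x = (coeffRingAut k N (frobAut k ℓ).symm x) ^ ℓ := by
  apply Subtype.ext
  rw [coe_Vk]
  show qExpand k ℓ (x : LaurentSeries k) =
    (coeffMap (((frobAut k ℓ).symm : k ≃+* k) : k →+* k) (x : LaurentSeries k)) ^ ℓ
  rw [pow_char_eq_qExpand ℓ, coeffMap_coeffMap]
  congr 1
  rw [coeffMap_congr (g := RingHom.id k) (RingHom.ext fun c => ?_), coeffMap_id]
  show frobenius k ℓ ((frobeniusEquiv k ℓ).symm c) = c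
  exact frobenius_apply_frobeniusEquiv_symm k ℓ c

theorem Vk_eq_inv [Fact ℓ.Prime] [CharP k ℓ] [PerfectField k]
    (x : ↥(modularFunctionFieldFullC k N)) :
    Vk N ℓ k x = (coeffRingAut k N (frobAut k ℓ)⁻¹ x) ^ ℓ := Vk_eq x

/-- The reduction of `normI`, inside `F_k`. -/
theorem red_eq_of_coe [Fact ℓ.Prime] [CharP k ℓ] [PerfectField k] {a a' : ↥(intRing A π N)}
    (h : ((red A π N a' : ↥(modularFunctionFieldFullC k N)) : LaurentSeries k) =
        qExpand k ℓ ((red A π N a : ↥(modularFunctionFieldFullC k N)) : LaurentSeries k) *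
          coeffMap (frobenius k ℓ)
            ((red A π N a : ↥(modularFunctionFieldFullC k N)) : LaurentSeries k)) :
    red A π N a' = Vk N ℓ k (red A π N a) * coeffRingAut k N (frobAut k ℓ) (red A π N a) := by
  apply Subtype.ext
  rw [h]
  rfl

/-- **The norm of a fraction**: `f = c · a / b ⟹ N(β f) = c^(ℓ+1) · a' / b'`. -/
theorem norm_beta_rep [hℓF : Fact ℓ.Prime] (hℓN : ¬ ℓ ∣ N) (hρ : HasRho N ℓ) [CharP k ℓ]
    [PerfectField k] {f : ↥(laurentBaseChange Kb (modularFunctionFieldFull N))} {c : Kb}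
    {a b : ↥(intRing A π N)}
    (h : f * toFL A π N b =
      algebraMap Kb ↥(laurentBaseChange Kb (modularFunctionFieldFull N)) c * toFL A π N a) :
    ∃ a' b' : ↥(intRing A π N),
      normBeta N ℓ f * toFL A π N b' =
          algebraMap Kb ↥(laurentBaseChange Kb (modularFunctionFieldFull N)) (c ^ (ℓ + 1)) *
            toFL A π N a' ∧
      red A π N a' = Vk N ℓ k (red A π N a) * coeffRingAut k N (frobAut k ℓ) (red A π N a) ∧
      red A π N b' = Vk N ℓ k (red A π N b) * coeffRingAut k N (frobAut k ℓ) (red A π N b) := by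
  obtain ⟨a', ha', hra'⟩ := exists_normI A π hℓN hρ a
  obtain ⟨b', hb', hrb'⟩ := exists_normI A π hℓN hρ b
  refine ⟨a', b', ?_, red_eq_of_coe A π hra', red_eq_of_coe A π hrb'⟩
  letI := algebraAlong (heckeAlphaBar Kb N ℓ)
  haveI := isScalarTower_along (heckeAlphaBar Kb N ℓ)
  have hdeg : Module.finrank ↥(laurentBaseChange Kb (modularFunctionFieldFull N))
      ↥(laurentBaseChange Kb (modularFunctionFieldFull (N * ℓ))) = ℓ + 1 :=
    Fermat.Agent.S37.ES.DegreeBeta.finrankAlong_alpha N hℓF.out hℓN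
  have h2' : heckeBetaBar Kb N ℓ
      (algebraMap Kb ↥(laurentBaseChange Kb (modularFunctionFieldFull N)) c) =
      algebraMap ↥(laurentBaseChange Kb (modularFunctionFieldFull N))
        ↥(laurentBaseChange Kb (modularFunctionFieldFull (N * ℓ)))
        (algebraMap Kb ↥(laurentBaseChange Kb (modularFunctionFieldFull N)) c) := by
    rw [AlgHom.commutes]
    exact IsScalarTower.algebraMap_apply Kb
      ↥(laurentBaseChange Kb (modularFunctionFieldFull N))
      ↥(laurentBaseChange Kb (modularFunctionFieldFull (N * ℓ))) c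
  have h1 := congrArg (normBeta N ℓ) h
  rw [normBeta_mul, normBeta_mul, ← ha', ← hb'] at h1
  have h3 : normBeta N ℓ (algebraMap Kb ↥(laurentBaseChange Kb (modularFunctionFieldFull N)) c) =
      algebraMap Kb ↥(laurentBaseChange Kb (modularFunctionFieldFull N)) (c ^ (ℓ + 1)) := by
    rw [normBeta_def]
    rw [h2', Algebra.norm_algebraMap, hdeg, ← map_pow]
  rw [h3] at h1
  exact h1

/-- **The norm congruence** for Gauss units: `N(β u)` is a Gauss unit and
`redV (N(β u)) = Frob (redV u) * (Frob⁻¹ (redV u))^ℓ`. -/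
theorem redV_norm_beta [hℓF : Fact ℓ.Prime] (hℓN : ¬ ℓ ∣ N) (hρ : HasRho N ℓ) [CharP k ℓ]
    [PerfectField k] (hrep : HasRep A π N) (u : ↥(OwV A π N hrep))
    (hu : redV A π N hrep u ≠ 0) :
    ∃ hmem : normBeta N ℓ (u : ↥(laurentBaseChange Kb (modularFunctionFieldFull N)))
        ∈ OwV A π N hrep,
      redV A π N hrep
          ⟨normBeta N ℓ (u : ↥(laurentBaseChange Kb (modularFunctionFieldFull N))), hmem⟩ =
        coeffRingAut k N (frobAut k ℓ) (redV A π N hrep u) *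
          (coeffRingAut k N (frobAut k ℓ).symm (redV A π N hrep u)) ^ ℓ := by
  obtain ⟨a, b, ha, hb, hab⟩ :=
    exists_rep_of_redw_ne_zero (A := A) (π := π) (N := N) ⟨u.1, u.2⟩ hu
  have hab' : (u : ↥(laurentBaseChange Kb (modularFunctionFieldFull N))) * toFL A π N b =
      algebraMap Kb ↥(laurentBaseChange Kb (modularFunctionFieldFull N)) 1 * toFL A π N a := by
    rw [map_one, one_mul]
    exact hab
  obtain ⟨a', b', hn, hra', hrb'⟩ := norm_beta_rep A π hℓN hρ hab'
  rw [one_pow, map_one, one_mul] at hn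
  have hφ : ∀ x : ↥(modularFunctionFieldFullC k N), x ≠ 0 →
      Vk N ℓ k x * coeffRingAut k N (frobAut k ℓ) x ≠ 0 := by
    intro x hx
    exact mul_ne_zero ((map_ne_zero (Vk N ℓ k)).mpr hx)
      ((map_ne_zero (coeffRingAut k N (frobAut k ℓ))).mpr hx)
  have hb' : red A π N b' ≠ 0 := by
    rw [hrb']
    exact hφ _ hb
  have hmem : normBeta N ℓ (u : ↥(laurentBaseChange Kb (modularFunctionFieldFull N)))
        ∈ OwV A π N hrep := ⟨a', b', hb', hn⟩
  refine ⟨hmem, ?_⟩
  have e1 : redV A π N hrep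
      ⟨normBeta N ℓ (u : ↥(laurentBaseChange Kb (modularFunctionFieldFull N))), hmem⟩ =
      red A π N a' / red A π N b' := redV_eq hrep ⟨_, hmem⟩ hb' hn
  have e2 : redV A π N hrep u = red A π N a / red A π N b := redV_eq hrep u hb hab
  rw [e1, e2, hra', hrb', map_div₀, map_div₀, div_pow, ← Vk_eq, ← Vk_eq, mul_div_mul_comm,
    mul_comm]

end Main

end Fermat.Agent.S37.ES.NormRed
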