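/-
Project I (S37), slice I-2b, part A: rigidity WITHOUT the separation hypothesis.

Let `Ψ : Div(F) →+ Div(F')` be additive, zero on principal divisors and bounded
(`|Ψ(P)(Q)| ≤ C` for all places `P`, `Q`).  If Riemann's theorem holds for `F`, then
`Ψ(P₁) = Ψ(P₂)` for all places `P₁`, `P₂`; hence `Ψ D = deg D • Ψ(P₀)` and `Ψ` vanishes on all
divisors of degree `0`.  (Compare `Deuring/Rigidity.eq_zero`, which in addition assumes a
separation hypothesis and concludes `Ψ = 0`; for statements about `Pic⁰` the degree-zero form is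
all one needs.)

Proof: by Riemann there is `u ≠ 0` with `div u = (m - g) P₁ - m P₂ + E`, `E ≥ 0` of degree `g`;
evaluating `0 = Ψ(div u)` at `Q` gives `|m (c₁ - c₂) - g c₁| ≤ g C` for every large `m`.
-/
import Mathlib
import Fermat.Agent.S37.Deuring.Rigidity

set_option autoImplicit false
set_option linter.unusedSectionVars false

noncomputable section

namespace Fermat.Agent.S37.ES.RigidityDegZero

open AlgebraicCurve Fermat.Agent.S18.NonSpecial Fermat.Agent.S37.Deuring.Rigidity

variable {K : Type*} [Field K] {F : Type*} [Field F] [Algebra K F]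
variable {K' : Type*} [Field K'] {F' : Type*} [Field F'] [Algebra K' F']

/-- **Rigidity, constant form**: a bounded additive map on divisors which kills principal
divisors takes the same value on all places. -/
theorem single_eq_single {g : ℕ} (hR : RiemannHyp K F g) [HasPrincipalDivisors K F]
    (Ψ : Divisor K F →+ Divisor K' F')
    (hprin : ∀ D ∈ Divisor.principal (K := K) (F := F), Ψ D = 0) (C : ℤ)
    (hbound : ∀ (P : Place K F) (Q : Place K' F'), |Ψ (Finsupp.single P 1) Q| ≤ C)
    (P₁ P₂ : Place K F) : Ψ (Finsupp.single P₁ 1) = Ψ (Finsupp.single P₂ 1) := by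
  classical
  ext Q
  by_contra hne
  set c₁ := Ψ (Finsupp.single P₁ 1) Q with hc₁
  set c₂ := Ψ (Finsupp.single P₂ 1) Q with hc₂
  have hC0 : 0 ≤ C := (abs_nonneg _).trans (hbound P₁ Q)
  -- the divisor `D = m P₂ - (m - g) P₁` of degree `g`
  set m : ℤ := g + g * C + g * |c₁| + 1 with hm
  set D : Divisor K F := Finsupp.single P₂ m - Finsupp.single P₁ (m - g) with hD
  have hdegD : Divisor.degree D = g := by
    rw [hD, map_sub, Divisor.degree_single, Divisor.degree_single, hR.deg_one, hR.deg_one]
    push_cast; ring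
  have hell : 0 < ell D := by
    have := riemann_ineq hR D
    rw [hdegD] at this
    omega
  have := hR.finite D
  have hnt : Nontrivial (riemannRochSpace D) := Module.nontrivial_of_finrank_pos hell
  obtain ⟨u, hu⟩ := exists_ne (0 : riemannRochSpace D)
  have hu0 : (u : F) ≠ 0 := fun h0 => hu (Subtype.ext h0)
  obtain ⟨Du, hDu, hdegDu⟩ := HasPrincipalDivisors.exists_divisor (K := K) (u : F) hu0
  have hE0 : 0 ≤ Du + D := by
    rw [Finsupp.le_def]
    intro v
    have h1 := ((mem_riemannRochSpace_iff.mp u.2) v).resolve_left hu0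
    rw [Finsupp.add_apply, hDu v]
    simp only [Finsupp.coe_zero, Pi.zero_apply]
    omega
  have hdegE : Divisor.degree (Du + D) = g := by rw [map_add, hdegDu, hdegD, zero_add]
  have hΨDu : Ψ Du = 0 := hprin Du ⟨(u : F), hu0, hDu⟩
  have hΨE : Ψ (Du + D) Q = m * c₂ - (m - g) * c₁ := by
    rw [map_add, hΨDu, zero_add, hD, map_sub, Finsupp.sub_apply]
    have h1 : Ψ (Finsupp.single P₂ m) = m • Ψ (Finsupp.single P₂ 1) := by
      rw [← map_zsmul, Finsupp.smul_single, smul_eq_mul, mul_one]
    have h2 : Ψ (Finsupp.single P₁ (m - g)) = (m - g) • Ψ (Finsupp.single P₁ 1) := by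
      rw [← map_zsmul, Finsupp.smul_single, smul_eq_mul, mul_one]
    rw [h1, h2, Finsupp.smul_apply, Finsupp.smul_apply, smul_eq_mul, smul_eq_mul]
  have hb := abs_apply_le_of_effective hR.deg_one Ψ C hbound Q (Du + D) hE0
  rw [hΨE, hdegE] at hb
  -- `|m (c₂ - c₁) + g c₁| ≤ g C` with `|c₂ - c₁| ≥ 1` and `m > g C + g |c₁|`
  have hd : (1 : ℤ) ≤ |c₂ - c₁| := Int.one_le_abs (sub_ne_zero.2 (Ne.symm hne))
  have hg0 : (0 : ℤ) ≤ g := Int.natCast_nonneg g
  have h1 : m * c₂ - (m - g) * c₁ = m * (c₂ - c₁) + g * c₁ := by ring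
  rw [h1] at hb
  have h2 : |m * (c₂ - c₁)| ≤ |m * (c₂ - c₁) + g * c₁| + |(g : ℤ) * c₁| := by
    have := abs_sub (m * (c₂ - c₁) + g * c₁) ((g : ℤ) * c₁)
    simpa using this
  have h3 : |(g : ℤ) * c₁| = g * |c₁| := by rw [abs_mul, abs_of_nonneg hg0]
  have hm0 : 0 < m := by
    have : 0 ≤ (g : ℤ) * C := mul_nonneg hg0 hC0
    have : 0 ≤ (g : ℤ) * |c₁| := mul_nonneg hg0 (abs_nonneg _)
    omega
  have h4 : |m * (c₂ - c₁)| = m * |c₂ - c₁| := by rw [abs_mul, abs_of_pos hm0]
  rw [h3, h4] at h2
  nlinarith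

/-- **Rigidity on divisors of degree zero**: a bounded additive map on divisors which kills
principal divisors kills all divisors of degree `0`. -/
theorem eq_zero_of_degree_eq_zero {g : ℕ} (hR : RiemannHyp K F g) [HasPrincipalDivisors K F]
    (Ψ : Divisor K F →+ Divisor K' F')
    (hprin : ∀ D ∈ Divisor.principal (K := K) (F := F), Ψ D = 0) (C : ℤ)
    (hbound : ∀ (P : Place K F) (Q : Place K' F'), |Ψ (Finsupp.single P 1) Q| ≤ C)
    (D : Divisor K F) (hD : Divisor.degree D = 0) : Ψ D = 0 := by
  classical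
  have := hR.infinite
  obtain ⟨P₀⟩ : Nonempty (Place K F) := inferInstance
  have key : ∀ E : Divisor K F, Ψ E = Divisor.degree E • Ψ (Finsupp.single P₀ 1) := by
    intro E
    induction E using Finsupp.induction_linear with
    | zero => simp
    | add E E' hE hE' => rw [map_add, map_add, hE, hE', add_smul]
    | single P n =>
      have h1 : Finsupp.single P n = n • Finsupp.single P (1 : ℤ) := by
        rw [Finsupp.smul_single, smul_eq_mul, mul_one]
      rw [h1, map_zsmul, map_zsmul, single_eq_single hR Ψ hprin C hbound P P₀,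
        Divisor.degree_single, hR.deg_one]
      simp
  rw [key D, hD, zero_smul]

end Fermat.Agent.S37.ES.RigidityDegZero
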