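/-
Project I (S37), slice I-2b, part B: the abstract Eichler-Shimura relation on divisors of
degree zero.

Setting: function fields `F/K` (Riemann's theorem known) and `F'/K'`; an additive endomorphism
`T` of `Div(F)` (a correspondence) which sends every place to an effective divisor of degree
`≤ n`; a degree preserving place map `r : Place K F → Place K' F'`; a semilinear automorphism
`g` of `F'/K'` (Frobenius).  If
  `r_* (T D) = g • r_* D + ℓ • g⁻¹ • r_* D`
holds for all PRINCIPAL divisors `D`, then it holds for all divisors of DEGREE ZERO.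
(`ES/RigidityDegZero`: the difference of the two sides is a bounded additive map killing principal
divisors.)
-/
import Mathlib
import Fermat.Prelude.Def_AlgebraicCurve_BaseChangeGalois
import Fermat.Agent.S37.ES.RigidityDegZero

set_option autoImplicit false
set_option linter.unusedSectionVars false

noncomputable section

namespace Fermat.Agent.S37.ES.RelationCore

open AlgebraicCurve Fermat.Agent.S18.NonSpecial

variable {K : Type*} [Field K] {F : Type*} [Field F] [Algebra K F]
variable {K' : Type*} [Field K'] {F' : Type*} [Field F'] [Algebra K' F']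

/-! ### Effective divisors -/

theorem degree_mapDomain (r : Place K F → Place K' F') (hdeg : ∀ P, (r P).deg = P.deg)
    (D : Divisor K F) : Divisor.degree (Finsupp.mapDomain r D) = Divisor.degree D := by
  induction D using Finsupp.induction with
  | zero => simp
  | single_add P n D _ _ ih =>
    rw [Finsupp.mapDomain_add, map_add, map_add, ih, Finsupp.mapDomain_single,
      Divisor.degree_single, Divisor.degree_single, hdeg]

theorem mapDomain_nonneg (r : Place K F → Place K' F') {D : Divisor K F} (hD : 0 ≤ D) :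
    0 ≤ Finsupp.mapDomain r D := by
  classical
  rw [Finsupp.le_def]
  intro Q
  rw [Finsupp.mapDomain, Finsupp.sum_apply, Finsupp.sum]
  refine Finset.sum_nonneg fun P _ => ?_
  rw [Finsupp.single_apply]
  split_ifs
  · exact Finsupp.le_def.1 hD P
  · exact le_rfl

/-- For an effective divisor on a curve all of whose places have degree one, every coefficient is
bounded by the degree. -/
theorem apply_le_degree (hdeg : ∀ v : Place K F, v.deg = 1) {D : Divisor K F} (hD : 0 ≤ D)
    (Q : Place K F) : D Q ≤ Divisor.degree D := by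
  classical
  have h0 : ∀ P, 0 ≤ D P := fun P => Finsupp.le_def.1 hD P
  have hdegD : Divisor.degree D = ∑ P ∈ D.support, D P := by
    conv_lhs => rw [← Finsupp.sum_single D]
    rw [Finsupp.sum, map_sum]
    refine Finset.sum_congr rfl fun P _ => ?_
    rw [Divisor.degree_single, hdeg]
    simp
  rw [hdegD]
  by_cases hQ : Q ∈ D.support
  · exact Finset.single_le_sum (f := fun P => D P) (fun P _ => h0 P) hQ
  · rw [Finsupp.notMem_support_iff.1 hQ]
    exact Finset.sum_nonneg fun P _ => h0 P

theorem abs_apply_le_degree (hdeg : ∀ v : Place K F, v.deg = 1) {D : Divisor K F} (hD : 0 ≤ D)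
    (Q : Place K F) : |D Q| ≤ Divisor.degree D := by
  rw [abs_of_nonneg (Finsupp.le_def.1 hD Q)]
  exact apply_le_degree hdeg hD Q

/-! ### The relation -/

/-- **Abstract Eichler-Shimura relation**: from principal divisors to all divisors of degree `0`.
-/
theorem relation_of_principal {gen : ℕ} (hR : RiemannHyp K F gen) [HasPrincipalDivisors K F]
    (T : Divisor K F →+ Divisor K F) (n : ℤ)
    (hTeff : ∀ P : Place K F, 0 ≤ T (Finsupp.single P 1))
    (hTdeg : ∀ P : Place K F, Divisor.degree (T (Finsupp.single P 1)) ≤ n)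
    (r : Place K F → Place K' F') (hrdeg : ∀ P, (r P).deg = P.deg)
    (hdeg' : ∀ Q : Place K' F', Q.deg = 1)
    (g : SemilinearAut K' F') (ℓ : ℕ)
    (hprin : ∀ D ∈ Divisor.principal (K := K) (F := F),
      Finsupp.mapDomain r (T D) =
        g • Finsupp.mapDomain r D + ℓ • (g⁻¹ • Finsupp.mapDomain r D))
    (D : Divisor K F) (hD : Divisor.degree D = 0) :
    Finsupp.mapDomain r (T D) = g • Finsupp.mapDomain r D + ℓ • (g⁻¹ • Finsupp.mapDomain r D) := by
  classical
  set Rm : Divisor K F →+ Divisor K' F' := Finsupp.mapDomain.addMonoidHom r with hRm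
  set G : Divisor K' F' →+ Divisor K' F' :=
    DistribSMul.toAddMonoidHom (Divisor K' F') g +
      ℓ • DistribSMul.toAddMonoidHom (Divisor K' F') g⁻¹ with hG
  set Ψ : Divisor K F →+ Divisor K' F' := Rm.comp T - G.comp Rm with hΨ
  have hΨapp : ∀ E, Ψ E = Finsupp.mapDomain r (T E) -
      (g • Finsupp.mapDomain r E + ℓ • (g⁻¹ • Finsupp.mapDomain r E)) := fun E => rfl
  have hΨprin : ∀ E ∈ Divisor.principal (K := K) (F := F), Ψ E = 0 := by
    intro E hE
    rw [hΨapp, hprin E hE, sub_self]
  have hn0 : 0 ≤ n := by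
    have := hR.infinite
    obtain ⟨P₀⟩ : Nonempty (Place K F) := inferInstance
    have h1 := hTdeg P₀
    have h2 : 0 ≤ Divisor.degree (T (Finsupp.single P₀ 1)) := by
      have := apply_le_degree hR.deg_one (hTeff P₀) P₀
      exact (Finsupp.le_def.1 (hTeff P₀) P₀).trans this
    exact h2.trans h1
  have hbound : ∀ (P : Place K F) (Q : Place K' F'),
      |Ψ (Finsupp.single P 1) Q| ≤ n + 1 + ℓ := by
    intro P Q
    rw [hΨapp, Finsupp.mapDomain_single, SemilinearAut.smul_single, SemilinearAut.smul_single,
      Finsupp.sub_apply, Finsupp.add_apply, Finsupp.smul_apply]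
    have h1 : |Finsupp.mapDomain r (T (Finsupp.single P 1)) Q| ≤ n := by
      have hE := mapDomain_nonneg r (hTeff P)
      refine (abs_apply_le_degree hdeg' hE Q).trans ?_
      rw [degree_mapDomain r hrdeg]
      exact hTdeg P
    have h2 : |(Finsupp.single (g • r P) (1 : ℤ)) Q| ≤ 1 := by
      rw [Finsupp.single_apply]
      split_ifs <;> simp
    have h3 : |(Finsupp.single (g⁻¹ • r P) (1 : ℤ)) Q| ≤ 1 := by
      rw [Finsupp.single_apply]
      split_ifs <;> simp
    have h4 : |ℓ • (Finsupp.single (g⁻¹ • r P) (1 : ℤ)) Q| ≤ ℓ := by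
      rw [nsmul_eq_mul, abs_mul, Nat.abs_cast]
      calc (ℓ : ℤ) * |(Finsupp.single (g⁻¹ • r P) (1 : ℤ)) Q| ≤ ℓ * 1 :=
            mul_le_mul_of_nonneg_left h3 (Int.natCast_nonneg ℓ)
        _ = ℓ := mul_one _
    calc |Finsupp.mapDomain r (T (Finsupp.single P 1)) Q -
          ((Finsupp.single (g • r P) (1 : ℤ)) Q + ℓ • (Finsupp.single (g⁻¹ • r P) (1 : ℤ)) Q)|
        ≤ |Finsupp.mapDomain r (T (Finsupp.single P 1)) Q| +
          |(Finsupp.single (g • r P) (1 : ℤ)) Q + ℓ • (Finsupp.single (g⁻¹ • r P) (1 : ℤ)) Q| :=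
          abs_sub _ _
      _ ≤ n + (1 + ℓ) := add_le_add h1 ((abs_add_le _ _).trans (add_le_add h2 h4))
      _ = n + 1 + ℓ := by ring
  have h0 := RigidityDegZero.eq_zero_of_degree_eq_zero hR Ψ hΨprin (n + 1 + ℓ) hbound D hD
  rw [hΨapp, sub_eq_zero] at h0
  exact h0

end Fermat.Agent.S37.ES.RelationCore
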