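/-
Project I (S37), slice I-2b: the Eichler-Shimura relation (R3) for the reduction map.

`Kb = AlgebraicClosure ℚ`, `A` a valuation subring of `Kb`, `k` its residue field (of
characteristic `ℓ`, perfect), `red = reductionModL A N : JZero N →+ JZeroC k N`,
`Fb = frobPic0 k N ℓ` (coefficientwise Frobenius on `Pic⁰(F_k)`), `T_ℓ = heckeOperatorBar N ℓ`.

THEOREM `reductionModL_hecke`:
  `red (T_ℓ x) = Fb (red x) + ℓ • Fb⁻¹ (red x)`  for all `x : JZero N`,
from
* `h   : ReductionInputsModL A N`            (slice I-1Z),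
* `hR  : RiemannHyp Kb (F_L) g`              (S18/A/Hurwitz),
* `hdegk` : all places of `F_k` have degree one,
* `ℓ` prime, `ℓ ∤ N`.

Proof: on principal divisors `div y` (`y` integral with nonzero reduction; these generate by
`PrincipalGeneratedByIntegral`) `T_ℓ (div y) = div N(β y)` (norm formula along `α`, slice I-3),
`N(β y)` is integral with reduction `ȳ^φ · (ȳ^(φ⁻¹))^ℓ` (norm route, `ES/NormRed`), and
`r_*` turns divisors of integral elements into divisors of their reductions; so
`Ψ = r_* T_ℓ - (Fr + ℓ Fr⁻¹) r_*` kills principal divisors, and `ES/RelationCore` (rigidity on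
degree zero divisors) finishes.
-/
import Mathlib
import Fermat.Prelude.Def_ModularCurve_HeckeOperatorTotal
import Fermat.Prelude.Def_ModularCurve_ReductionModL
import Fermat.Agent.S18.GaussFromH
import Fermat.Agent.S37.Equivariance.CoeffAut
import Fermat.Agent.S37.ES.RelationCore
import Fermat.Agent.S37.ES.NormRed
import Fermat.Agent.S37.ES.HeckeRho
import Fermat.Agent.S37.ES.DegreeBeta
import Fermat.Agent.S37.Hecke.Inputs
import Fermat.Agent.S18.A.RiemannFk
import Fermat.Agent.S18.ResidueBasics

set_option autoImplicit false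
set_option linter.unusedSectionVars false
set_option linter.style.haveILetI false
set_option synthInstance.maxHeartbeats 400000

noncomputable section

namespace Fermat.Agent.S37.ES.Relation

open ModularCurve AlgebraicCurve Fermat.Agent.S18.NonSpecial Fermat.Agent.S18.GaussFromH
  Fermat.Agent.S37.Equivariance.CoeffAut Fermat.Agent.S37.Hecke.Integral
  Fermat.Agent.S37.Hecke.Inputs

/-! ### Generalities on divisors -/

section General

variable {K : Type*} [Field K] {F : Type*} [Field F] [Algebra K F]

/-- The divisor of `g • f` is `g •` the divisor of `f`. -/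
theorem smul_div_apply (g : SemilinearAut K F) {D : Divisor K F} {f : F}
    (hD : ∀ P : Place K F, D P = P.ord f) (Q : Place K F) : (g • D) Q = Q.ord (g • f) := by
  rw [SemilinearAut.divisor_smul_apply, hD]
  have h := SemilinearAut.ord_smul g (g⁻¹ • Q) f
  rw [smul_inv_smul] at h
  exact h.symm

section Along

variable {F' : Type*} [Field F'] [Algebra K F'] [HasPrincipalDivisors K F']

/-- A correspondence sends the divisor of `u` to the divisor of the norm (along `ψ`) of `φ u`. -/
theorem correspondence_apply_of_principal (φ ψ : F →ₐ[K] F') (hφ : φ.toRingHom.IsIntegral)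
    (hψ : ψ.toRingHom.IsIntegral) (hfin : FiniteAlong K ψ) (hN : NormFormulaAlong K ψ hfin)
    {u : F} (hu : u ≠ 0) {D : Divisor K F} (hD : ∀ v : Place K F, D v = v.ord u)
    (v : Place K F) :
    Divisor.correspondence φ ψ hφ hψ D v =
      v.ord (letI := algebraAlong ψ; Algebra.norm F (φ u)) := by
  have h1 : ∀ w : Place K F', Divisor.pullbackAlong φ hφ D w = w.ord (φ u) := by
    intro w
    letI := algebraAlong φ
    haveI := isScalarTower_along φ
    haveI := isIntegral_along φ hφ
    exact Divisor.pullback_apply_eq_ord hD w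
  have hφu : φ u ≠ 0 := (map_ne_zero φ).mpr hu
  rw [Divisor.correspondence_apply]
  letI := algebraAlong ψ
  haveI := isScalarTower_along ψ
  haveI : Module.Finite F F' := hfin
  exact hN (φ u) hφu _ h1 v

theorem pullbackAlong_nonneg (φ : F →ₐ[K] F') (hφ : φ.toRingHom.IsIntegral) {D : Divisor K F}
    (hD : 0 ≤ D) : 0 ≤ Divisor.pullbackAlong φ hφ D := by
  rw [Finsupp.le_def]
  intro w
  rw [Divisor.pullbackAlong_apply, Finsupp.zero_apply]
  exact mul_nonneg (Int.natCast_nonneg _) (Finsupp.le_def.1 hD _)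

theorem pushforwardAlong_nonneg (ψ : F →ₐ[K] F') (hψ : ψ.toRingHom.IsIntegral)
    {E : Divisor K F'} (hE : 0 ≤ E) : 0 ≤ Divisor.pushforwardAlong ψ hψ E := by
  classical
  letI := algebraAlong ψ
  haveI := isScalarTower_along ψ
  haveI := isIntegral_along ψ hψ
  rw [Finsupp.le_def]
  intro v
  show (0 : ℤ) ≤ Divisor.pushforward F E v
  rw [Divisor.pushforward_apply]
  refine Finset.sum_nonneg fun w _ => ?_
  split_ifs
  · exact mul_nonneg (Finsupp.le_def.1 hE w) (Int.natCast_nonneg _)
  · exact le_rfl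

theorem correspondence_nonneg (φ ψ : F →ₐ[K] F') (hφ : φ.toRingHom.IsIntegral)
    (hψ : ψ.toRingHom.IsIntegral) {D : Divisor K F} (hD : 0 ≤ D) :
    0 ≤ Divisor.correspondence φ ψ hφ hψ D := by
  rw [Divisor.correspondence_apply]
  exact pushforwardAlong_nonneg ψ hψ (pullbackAlong_nonneg φ hφ hD)

end Along

end General

/-! ### The relation on integral principal divisors -/

section Main

local notation "Kb" => AlgebraicClosure ℚ

variable {N : ℕ} [NeZero N] {ℓ : ℕ} [NeZero ℓ] {A : ValuationSubring Kb}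

/-- `T_ℓ (div u) = div N_{E/αF}(β u)`. -/
theorem heckeDivBar_principal' {u : ↥(modularFunctionFieldBar N)} (hu : u ≠ 0)
    {D : Divisor Kb ↥(modularFunctionFieldBar N)} (hD : ∀ v, D v = v.ord u)
    (v : Place Kb ↥(modularFunctionFieldBar N)) :
    haveI := hasPrincipalDivisors_level N ℓ
    heckeDivBar (alphaIntegral N ℓ) (betaIntegral N ℓ) D v = v.ord (NormRed.normBeta N ℓ u) := by
  haveI := hasPrincipalDivisors_level N ℓ
  exact correspondence_apply_of_principal _ _ _ _ (finiteAlong_alpha N ℓ)
    (normFormulaAlong_alpha N ℓ) hu hD v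

/-- `T_ℓ P` is effective. -/
theorem heckeDivBar_single_nonneg' (P : Place Kb ↥(modularFunctionFieldBar N)) :
    haveI := hasPrincipalDivisors_level N ℓ
    0 ≤ heckeDivBar (alphaIntegral N ℓ) (betaIntegral N ℓ) (Finsupp.single P 1) := by
  haveI := hasPrincipalDivisors_level N ℓ
  classical
  refine correspondence_nonneg _ _ _ _ ?_
  rw [Finsupp.le_def]
  intro Q
  rw [Finsupp.single_apply]
  split_ifs <;> simp

/-- On the divisor of an integral element with nonzero reduction:
`r_* (T_ℓ E) = Fr • r_* E + ℓ • Fr⁻¹ • r_* E`. -/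
theorem mapDomain_hecke_integral [hℓF : Fact ℓ.Prime] (hℓN : ¬ ℓ ∣ N)
    [CharP (IsLocalRing.ResidueField A) ℓ] [PerfectField (IsLocalRing.ResidueField A)]
    {r : Place Kb ↥(modularFunctionFieldBar N) →
      Place (IsLocalRing.ResidueField A) (modularFunctionFieldFullC (IsLocalRing.ResidueField A) N)}
    (hr : IsPlaceReductionModL A N r)
    {E : Divisor Kb ↥(modularFunctionFieldBar N)}
    (hE : E ∈ integralPrincipalDivisors A (IsLocalRing.residue A) N) :
    haveI := hasPrincipalDivisors_level N ℓ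
    Finsupp.mapDomain r (heckeDivBar (alphaIntegral N ℓ) (betaIntegral N ℓ) E) =
      coeffAut (IsLocalRing.ResidueField A) N (frobAut (IsLocalRing.ResidueField A) ℓ) •
          Finsupp.mapDomain r E +
        ℓ • ((coeffAut (IsLocalRing.ResidueField A) N
          (frobAut (IsLocalRing.ResidueField A) ℓ))⁻¹ • Finsupp.mapDomain r E) := by
  haveI := hasPrincipalDivisors_level N ℓ
  obtain ⟨y, hy, hyk, hne, hEy⟩ := hE
  set a : ↥(intRing A (IsLocalRing.residue A) N) := ⟨y, hy, hyk⟩ with ha
  have hρ : NormAlpha.HasRho N ℓ :=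
    NormAlpha.hasRho_of_algHom N ℓ (HeckeRho.exists_rho hℓF.out hℓN)
  obtain ⟨a', ha', hra'⟩ := NormRed.exists_normI A (IsLocalRing.residue A) hℓN hρ a
  have hred := NormRed.red_eq_of_coe A (IsLocalRing.residue A) hra'
  rw [NormRed.Vk_eq_inv] at hred
  have hane : red A (IsLocalRing.residue A) N a ≠ 0 := fun h => hne (congrArg Subtype.val h)
  have hu : toFL A (IsLocalRing.residue A) N a ≠ 0 := toFL_ne_zero_of_red_ne_zero hane
  set g : SemilinearAut (IsLocalRing.ResidueField A)
      (modularFunctionFieldFullC (IsLocalRing.ResidueField A) N) :=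
    coeffAut (IsLocalRing.ResidueField A) N (frobAut (IsLocalRing.ResidueField A) ℓ) with hg
  have hginv : g⁻¹ = coeffAut (IsLocalRing.ResidueField A) N
      (frobAut (IsLocalRing.ResidueField A) ℓ)⁻¹ := (map_inv _ _).symm
  -- the two factors of the reduction of the norm
  have h1 : g • red A (IsLocalRing.residue A) N a ≠ 0 := by
    rw [Ne, smul_eq_zero_iff_eq]
    exact hane
  have h2 : g⁻¹ • red A (IsLocalRing.residue A) N a ≠ 0 := by
    rw [Ne, smul_eq_zero_iff_eq]
    exact hane
  have hred' : red A (IsLocalRing.residue A) N a' =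
      (g⁻¹ • red A (IsLocalRing.residue A) N a) ^ ℓ * (g • red A (IsLocalRing.residue A) N a) := by
    rw [hred, hginv]
    rfl
  have hne' : coeffMap (IsLocalRing.residue A) a'.1 ≠ 0 := by
    intro h0
    have : red A (IsLocalRing.residue A) N a' = 0 := Subtype.ext h0
    rw [hred'] at this
    exact mul_ne_zero (pow_ne_zero _ h2) h1 this
  -- `T E = div (toFL a')`
  have hTE : ∀ P, heckeDivBar (alphaIntegral N ℓ) (betaIntegral N ℓ) E P =
      P.ord (toFL A (IsLocalRing.residue A) N a') := by
    intro P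
    rw [ha']
    exact heckeDivBar_principal' hu hEy P
  have hrE := hr.2 y hy hyk hne E hEy
  ext Q
  rw [hr.2 a'.1 a'.2.1 a'.2.2 hne' _ hTE Q, Finsupp.add_apply, Finsupp.smul_apply,
    smul_div_apply g hrE, smul_div_apply g⁻¹ hrE]
  show Q.ord (red A (IsLocalRing.residue A) N a') = _
  rw [hred', Q.ord_mul (pow_ne_zero _ h2) h1, ← zpow_natCast, Q.ord_zpow, add_comm,
    nsmul_eq_mul]
  rfl

/-- On all principal divisors: `r_* (T_ℓ D) = Fr • r_* D + ℓ • Fr⁻¹ • r_* D`. -/
theorem mapDomain_hecke_principal [hℓF : Fact ℓ.Prime] (hℓN : ¬ ℓ ∣ N)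
    [CharP (IsLocalRing.ResidueField A) ℓ] [PerfectField (IsLocalRing.ResidueField A)]
    {r : Place Kb ↥(modularFunctionFieldBar N) →
      Place (IsLocalRing.ResidueField A) (modularFunctionFieldFullC (IsLocalRing.ResidueField A) N)}
    (hr : IsPlaceReductionModL A N r)
    (hgen : PrincipalGeneratedByIntegral A (IsLocalRing.residue A) N)
    {D : Divisor Kb ↥(modularFunctionFieldBar N)}
    (hD : D ∈ Divisor.principal (K := Kb) (F := ↥(modularFunctionFieldBar N))) :
    haveI := hasPrincipalDivisors_level N ℓ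
    Finsupp.mapDomain r (heckeDivBar (alphaIntegral N ℓ) (betaIntegral N ℓ) D) =
      coeffAut (IsLocalRing.ResidueField A) N (frobAut (IsLocalRing.ResidueField A) ℓ) •
          Finsupp.mapDomain r D +
        ℓ • ((coeffAut (IsLocalRing.ResidueField A) N
          (frobAut (IsLocalRing.ResidueField A) ℓ))⁻¹ • Finsupp.mapDomain r D) := by
  haveI := hasPrincipalDivisors_level N ℓ
  set g : SemilinearAut (IsLocalRing.ResidueField A)
      (modularFunctionFieldFullC (IsLocalRing.ResidueField A) N) :=
    coeffAut (IsLocalRing.ResidueField A) N (frobAut (IsLocalRing.ResidueField A) ℓ) with hg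
  set Rm : Divisor Kb ↥(modularFunctionFieldBar N) →+
      Divisor (IsLocalRing.ResidueField A)
        (modularFunctionFieldFullC (IsLocalRing.ResidueField A) N) :=
    Finsupp.mapDomain.addMonoidHom r with hRm
  set G : Divisor (IsLocalRing.ResidueField A)
        (modularFunctionFieldFullC (IsLocalRing.ResidueField A) N) →+
      Divisor (IsLocalRing.ResidueField A)
        (modularFunctionFieldFullC (IsLocalRing.ResidueField A) N) :=
    DistribSMul.toAddMonoidHom _ g + ℓ • DistribSMul.toAddMonoidHom _ g⁻¹ with hG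
  have key : Set.EqOn (Rm.comp (heckeDivBar (alphaIntegral N ℓ) (betaIntegral N ℓ)))
      (G.comp Rm) (AddSubgroup.closure (integralPrincipalDivisors A (IsLocalRing.residue A) N)) :=
    AddMonoidHom.eqOn_closure fun E hE => mapDomain_hecke_integral hℓN hr hE
  exact key (hgen hD)

/-- The degree of `T_ℓ P` is `ℓ + 1`. -/
theorem degree_heckeDivBar_single (hℓ : ℓ.Prime) (hℓN : ¬ ℓ ∣ N)
    (P : Place Kb ↥(modularFunctionFieldBar N)) :
    haveI := hasPrincipalDivisors_level N ℓ
    Divisor.degree (heckeDivBar (alphaIntegral N ℓ) (betaIntegral N ℓ) (Finsupp.single P 1)) =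
      (ℓ : ℤ) + 1 := by
  haveI := hasPrincipalDivisors_level N ℓ
  unfold heckeDivBar
  rw [Divisor.degree_correspondence _ _ _ _ (fundamentalIdentityAlong_beta N ℓ),
    DegreeBeta.finrankAlong_beta N hℓ hℓN, Divisor.degree_single,
    Fermat.Agent.S18.A.Instances.deg_one_bar]
  push_cast
  ring

/-- **Eichler-Shimura on divisors of degree zero**:
`r_* (T_ℓ D) = Fr • r_* D + ℓ • Fr⁻¹ • r_* D`. -/
theorem mapDomain_hecke_degZero [hℓF : Fact ℓ.Prime] (hℓN : ¬ ℓ ∣ N)
    [CharP (IsLocalRing.ResidueField A) ℓ] [PerfectField (IsLocalRing.ResidueField A)]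
    {r : Place Kb ↥(modularFunctionFieldBar N) →
      Place (IsLocalRing.ResidueField A) (modularFunctionFieldFullC (IsLocalRing.ResidueField A) N)}
    (hr : IsPlaceReductionModL A N r)
    (hgen : PrincipalGeneratedByIntegral A (IsLocalRing.residue A) N)
    {gen : ℕ} (hR : RiemannHyp Kb ↥(modularFunctionFieldBar N) gen)
    (hdegk : ∀ Q : Place (IsLocalRing.ResidueField A)
      (modularFunctionFieldFullC (IsLocalRing.ResidueField A) N), Q.deg = 1)
    (D : Divisor Kb ↥(modularFunctionFieldBar N)) (hD : Divisor.degree D = 0) :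
    haveI := hasPrincipalDivisors_level N ℓ
    Finsupp.mapDomain r (heckeDivBar (alphaIntegral N ℓ) (betaIntegral N ℓ) D) =
      coeffAut (IsLocalRing.ResidueField A) N (frobAut (IsLocalRing.ResidueField A) ℓ) •
          Finsupp.mapDomain r D +
        ℓ • ((coeffAut (IsLocalRing.ResidueField A) N
          (frobAut (IsLocalRing.ResidueField A) ℓ))⁻¹ • Finsupp.mapDomain r D) := by
  haveI := hasPrincipalDivisors_level N ℓ
  haveI := Fermat.Agent.S18.A.Instances.hasPrincipalDivisors_bar N
  exact RelationCore.relation_of_principal hR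
    (heckeDivBar (alphaIntegral N ℓ) (betaIntegral N ℓ)) ((ℓ : ℤ) + 1)
    (fun P => heckeDivBar_single_nonneg' P)
    (fun P => (degree_heckeDivBar_single hℓF.out hℓN P).le)
    r hr.1 hdegk _ ℓ (fun E hE => mapDomain_hecke_principal hℓN hr hgen hE) D hD

/-- **(R3), `heckeOperatorAlong` form**: the Eichler-Shimura relation
`red ∘ T_ℓ = Frob ∘ red + ℓ • Frob⁻¹ ∘ red` on `J₀(N)`. -/
theorem reductionModL_heckeAlong [hℓF : Fact ℓ.Prime] (hℓN : ¬ ℓ ∣ N)
    [CharP (IsLocalRing.ResidueField A) ℓ] [PerfectField (IsLocalRing.ResidueField A)]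
    (h : ReductionInputsModL A N)
    {gen : ℕ} (hR : RiemannHyp Kb ↥(modularFunctionFieldBar N) gen)
    (hdegk : ∀ Q : Place (IsLocalRing.ResidueField A)
      (modularFunctionFieldFullC (IsLocalRing.ResidueField A) N), Q.deg = 1)
    (x : JZero N) :
    reductionModL A N (heckeOperatorAlong Kb N ℓ x) =
      frobPic0 (IsLocalRing.ResidueField A) N ℓ (reductionModL A N x) +
        ℓ • (frobPic0 (IsLocalRing.ResidueField A) N ℓ).symm (reductionModL A N x) := by
  haveI := hasPrincipalDivisors_level N ℓ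
  obtain ⟨D, rfl⟩ := Pic0.mk_surjective x
  have hrel := mapDomain_hecke_degZero hℓN (isPlaceReductionModL_placeReductionModL h)
    h.choose_spec.2 hR hdegk (D : Divisor Kb ↥(modularFunctionFieldBar N))
    (Divisor.mem_degZero.mp D.2)
  rw [heckeOperatorAlong_bar_mk, reductionModL_mk h, reductionModL_mk h, frobPic0,
    pic0Equiv_symm_apply, pic0Equiv_mk, pic0Equiv_mk, map_inv]
  show _ = Pic0.mk _ + Pic0.mk (ℓ • _)
  rw [← Pic0.mk_add]
  congr 1
  apply Subtype.ext
  exact hrel

end Main

section Final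

local notation "Kb" => AlgebraicClosure ℚ

variable {N : ℕ} [NeZero N] {A : ValuationSubring Kb}

/-- **(R3)** of `ReductionJZero.hasReduction_of_equiv`: the Eichler-Shimura relation
`red (T_ℓ x) = Frob (red x) + ℓ • Frob⁻¹ (red x)` for `red = reductionModL A N`,
`T_ℓ = heckeOperatorBar N ℓ`, `Frob = frobPic0 k N ℓ`. -/
theorem reductionModL_hecke {ℓ : ℕ} [hℓF : Fact ℓ.Prime] (hℓN : ¬ ℓ ∣ N)
    [CharP (IsLocalRing.ResidueField A) ℓ] [PerfectField (IsLocalRing.ResidueField A)]
    (h : ReductionInputsModL A N)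
    {gen : ℕ} (hR : RiemannHyp Kb ↥(modularFunctionFieldBar N) gen)
    (hdegk : ∀ Q : Place (IsLocalRing.ResidueField A)
      (modularFunctionFieldFullC (IsLocalRing.ResidueField A) N), Q.deg = 1)
    (x : JZero N) :
    reductionModL A N (heckeOperatorBar N ⟨ℓ, hℓF.out⟩ x) =
      frobPic0 (IsLocalRing.ResidueField A) N ℓ (reductionModL A N x) +
        ℓ • (frobPic0 (IsLocalRing.ResidueField A) N ℓ).symm (reductionModL A N x) := by
  haveI : NeZero ℓ := ⟨hℓF.out.ne_zero⟩
  rw [heckeOperatorBar_apply]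
  exact reductionModL_heckeAlong hℓN h hR hdegk x

/-- **(R3), final form**: all auxiliary hypotheses discharged (Riemann's theorem for `F_L`; places
of `F_k` have degree one because the residue field of a valuation subring of `ℚ̄` is
algebraically closed).  Only `h : ReductionInputsModL A N` (slice I-1) remains. -/
theorem reductionModL_hecke_final {ℓ : ℕ} [hℓF : Fact ℓ.Prime] (hℓN : ¬ ℓ ∣ N)
    [CharP (IsLocalRing.ResidueField A) ℓ] [PerfectField (IsLocalRing.ResidueField A)]
    (h : ReductionInputsModL A N) (x : JZero N) :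
    reductionModL A N (heckeOperatorBar N ⟨ℓ, hℓF.out⟩ x) =
      frobPic0 (IsLocalRing.ResidueField A) N ℓ (reductionModL A N x) +
        ℓ • (frobPic0 (IsLocalRing.ResidueField A) N ℓ).symm (reductionModL A N x) := by
  haveI := Fermat.Agent.S18.ResidueBasics.isAlgClosed_residueField A
  obtain ⟨gen, hR⟩ := Fermat.Agent.S18.A.RiemannFk.exists_riemannHyp_FL N
  exact reductionModL_hecke hℓN h hR
    (fun Q => Fermat.Agent.S18.A.Instances.deg_one
      (Fermat.Agent.S18.B.FkBasics.isFF (IsLocalRing.ResidueField A) N) Q) x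

end Final

end Fermat.Agent.S37.ES.Relation
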