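/-
PROJECT I (S37), slice I-2K (helper16): the Kummer extension `L((q)) / L((q^l))`.

`Ω = L((q)) = LaurentSeries L`, `Ks = L((q^l)) = range (qExpand L l)`, `ζ : Lˣ` of exact order `l`,
`σ = rescaleU ζ : q ↦ ζ q`.

* `finrank_Ks`            : `[Ω : Ks] = l` (Artin: `Ks` is the fixed field of `⟨σ⟩`);
* `kummerPoly ζ l y`      : `∏_{b < l} (T - σ^b y)` (over any commutative ring), `map_kummerPoly`;
* `kummerPolyK`           : the same polynomial with coefficients in `Ks`; it is the minimal
                            polynomial over `Ks` of every `y ∉ Ks` (`l` prime);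
* reduction: `map_kummerPoly` (base change along coefficient maps), `kummerPoly_one`.

The splitting `charpoly_{E₀/F₀} y = P_y · (T - ρ y)` is in `ES/KummerSplit.lean`.
-/
import Mathlib
import Fermat.Prelude.Def_ModularCurve_X0
import Fermat.Prelude.Def_ModularCurve_LaurentCoeff
import Fermat.Agent.S28.LaurentRescale

set_option autoImplicit false
set_option linter.style.haveILetI false
set_option linter.unusedSectionVars false

noncomputable section

namespace Fermat.Agent.S37.ES.Kummer

open Polynomial ModularCurve IntermediateField Fermat.Agent.S28.LaurentRescale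

/-! ### The substitutions `q ↦ u q` as a group homomorphism -/

section Hom

variable {R : Type*} [CommRing R]

/-- `u ↦ (q ↦ u q)` as a group homomorphism `Rˣ →* RingAut R((q))`. -/
def rescaleMonoidHom : Rˣ →* RingAut (LaurentSeries R) where
  toFun u := rescaleU u
  map_one' := by
    ext f : 1
    exact rescaleU_one f
  map_mul' u v := by
    ext f : 1
    exact rescaleU_mul u v f

@[simp] theorem rescaleMonoidHom_apply (u : Rˣ) (f : LaurentSeries R) :
    rescaleMonoidHom u f = rescaleU u f := rfl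

theorem rescaleMonoidHom_injective [IsDomain R] :
    Function.Injective (rescaleMonoidHom (R := R)) := by
  intro u v h
  refine eq_of_rescaleU_eq (f := HahnSeries.single (-1) (1 : R)) ?_ ?_
  · rw [HahnSeries.coeff_single_same]
    exact one_ne_zero
  · exact DFunLike.congr_fun h _

theorem rescaleU_npow (u : Rˣ) (n : ℕ) (f : LaurentSeries R) :
    rescaleU (u ^ n) f = ((rescaleMonoidHom u) ^ n) f := by
  rw [← map_pow]
  rfl

end Hom

/-! ### `L((q))` has degree `l` over `L((q^l))` -/

section Degree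

variable {L : Type*} [Field L] (l : ℕ) [NeZero l]

/-- the subfield `L((q^l))` of `L((q))` -/
def Ks : Subfield (LaurentSeries L) := (qExpand L l).fieldRange

variable {l}

theorem mem_Ks {f : LaurentSeries L} : f ∈ Ks (L := L) l ↔ f ∈ Set.range (qExpand L l) :=
  Iff.rfl

theorem qExpand_mem_Ks (g : LaurentSeries L) : qExpand L l g ∈ Ks (L := L) l := ⟨g, rfl⟩

variable {ζ : Lˣ}

theorem mem_Ks_iff (hζ : orderOf ζ = l) {f : LaurentSeries L} :
    f ∈ Ks (L := L) l ↔ rescaleU ζ f = f :=
  (rescaleU_eq_self_iff l hζ f).symm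

theorem rescaleU_pow_of_mem_Ks (hζ : orderOf ζ = l) {f : LaurentSeries L}
    (hf : f ∈ Ks (L := L) l) (b : ℕ) : rescaleU (ζ ^ b) f = f := by
  obtain ⟨g, rfl⟩ := hf
  refine rescaleU_qExpand_of_pow_eq_one l ?_ g
  rw [← pow_mul, mul_comm, pow_mul, ← hζ, pow_orderOf_eq_one, one_pow]

theorem rescaleU_pow_mem_Ks_iff (hζ : orderOf ζ = l) {f : LaurentSeries L} (b : ℕ) :
    rescaleU (ζ ^ b) f ∈ Ks (L := L) l ↔ f ∈ Ks (L := L) l := by
  rw [mem_Ks_iff hζ, mem_Ks_iff hζ, ← rescaleU_mul, mul_comm, rescaleU_mul]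
  exact (rescaleU (ζ ^ b)).injective.eq_iff

/-- the cyclic group generated by `q ↦ ζ q` -/
abbrev kummerGroup (ζ : Lˣ) : Subgroup (RingAut (LaurentSeries L)) :=
  Subgroup.zpowers (rescaleMonoidHom ζ)

theorem natCard_kummerGroup (hζ : orderOf ζ = l) : Nat.card (kummerGroup ζ) = l := by
  rw [Nat.card_zpowers, orderOf_injective _ rescaleMonoidHom_injective, hζ]

theorem fixedPoints_eq_Ks (hζ : orderOf ζ = l) :
    FixedPoints.subfield (kummerGroup ζ) (LaurentSeries L) = Ks (L := L) l := by
  ext f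
  rw [mem_Ks_iff hζ]
  constructor
  · intro h
    exact h ⟨rescaleMonoidHom ζ, Subgroup.mem_zpowers _⟩
  · intro h g
    have hle : kummerGroup ζ ≤ MulAction.stabilizer (RingAut (LaurentSeries L)) f := by
      rw [Subgroup.zpowers_le]
      exact h
    exact hle g.2

/-- **`[L((q)) : L((q^l))] = l`**. -/
theorem finrank_Ks (hζ : orderOf ζ = l) :
    Module.finrank (Ks (L := L) l) (LaurentSeries L) = l := by
  haveI : Finite (kummerGroup ζ) :=
    Nat.finite_of_card_ne_zero (by rw [natCard_kummerGroup hζ]; exact NeZero.ne l)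
  letI : Fintype (kummerGroup ζ) := Fintype.ofFinite _
  have h := FixedPoints.finrank_eq_card (kummerGroup ζ) (LaurentSeries L)
  rw [← Nat.card_eq_fintype_card, natCard_kummerGroup hζ] at h
  rw [← fixedPoints_eq_Ks hζ]
  exact h

theorem finiteDimensional_Ks (hζ : orderOf ζ = l) :
    FiniteDimensional (Ks (L := L) l) (LaurentSeries L) :=
  Module.finite_of_finrank_pos (by rw [finrank_Ks hζ]; exact Nat.pos_of_ne_zero (NeZero.ne l))

end Degree

/-! ### The Kummer polynomial `P_y = ∏_{b < l} (T - y(ζ^b q))` -/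

section KummerPoly

variable {R : Type*} [CommRing R]

/-- `P_y = ∏_{b < l} (T - y(ζ^b q))` -/
def kummerPoly (ζ : Rˣ) (l : ℕ) (y : LaurentSeries R) : (LaurentSeries R)[X] :=
  ∏ b ∈ Finset.range l, (X - C (rescaleU (ζ ^ b) y))

theorem monic_kummerPoly (ζ : Rˣ) (l : ℕ) (y : LaurentSeries R) : (kummerPoly ζ l y).Monic :=
  monic_prod_of_monic _ _ fun _ _ => monic_X_sub_C _

theorem natDegree_kummerPoly [Nontrivial R] (ζ : Rˣ) (l : ℕ) (y : LaurentSeries R) :
    (kummerPoly ζ l y).natDegree = l := by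
  rw [kummerPoly, natDegree_prod_of_monic _ _ fun _ _ => monic_X_sub_C _]
  simp

/-- base change of the Kummer polynomial along a coefficient homomorphism -/
theorem map_kummerPoly {S : Type*} [CommRing S] (φ : R →+* S) (ζ : Rˣ) (l : ℕ)
    (y : LaurentSeries R) :
    (kummerPoly ζ l y).map (coeffMap φ) =
      kummerPoly (Units.map φ.toMonoidHom ζ) l (coeffMap φ y) := by
  rw [kummerPoly, kummerPoly, Polynomial.map_prod]
  refine Finset.prod_congr rfl fun b _ => ?_
  rw [Polynomial.map_sub, Polynomial.map_X, Polynomial.map_C, coeffMap_rescaleU, map_pow]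

theorem kummerPoly_one (l : ℕ) (y : LaurentSeries R) :
    kummerPoly (1 : Rˣ) l y = (X - C y) ^ l := by
  simp [kummerPoly]

theorem eval_kummerPoly_self (ζ : Rˣ) {l : ℕ} (hl : l ≠ 0) (y : LaurentSeries R) :
    (kummerPoly ζ l y).eval y = 0 := by
  rw [kummerPoly, Polynomial.eval_prod]
  refine Finset.prod_eq_zero (Finset.mem_range.mpr (Nat.pos_of_ne_zero hl)) ?_
  simp

theorem prod_range_shift {M : Type*} [CommMonoid M] (f : ℕ → M) (l : ℕ) (h : f l = f 0) :
    ∏ b ∈ Finset.range l, f (b + 1) = ∏ b ∈ Finset.range l, f b := by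
  cases l with
  | zero => simp
  | succ n => rw [Finset.prod_range_succ, Finset.prod_range_succ', h]

/-- `q ↦ ζ q` permutes the factors of the Kummer polynomial -/
theorem map_rescaleU_kummerPoly {ζ : Rˣ} {l : ℕ} (hζ : ζ ^ l = 1) (y : LaurentSeries R) :
    (kummerPoly ζ l y).map ((rescaleU ζ : LaurentSeries R ≃+* LaurentSeries R) :
      LaurentSeries R →+* LaurentSeries R) = kummerPoly ζ l y := by
  rw [kummerPoly, Polynomial.map_prod]
  rw [← prod_range_shift (fun b => (X - C (rescaleU (ζ ^ b) y) : (LaurentSeries R)[X])) l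
    (by rw [hζ, pow_zero])]
  refine Finset.prod_congr rfl fun b _ => ?_
  rw [Polynomial.map_sub, Polynomial.map_X, Polynomial.map_C, pow_succ', rescaleU_mul]
  rfl

theorem rescaleU_coeff_kummerPoly {ζ : Rˣ} {l : ℕ} (hζ : ζ ^ l = 1) (y : LaurentSeries R)
    (n : ℕ) : rescaleU ζ ((kummerPoly ζ l y).coeff n) = (kummerPoly ζ l y).coeff n := by
  conv_rhs => rw [← map_rescaleU_kummerPoly hζ y, Polynomial.coeff_map]
  rfl

end KummerPoly

section KummerPolyK

variable {L : Type*} [Field L] {l : ℕ} [NeZero l] {ζ : Lˣ}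

theorem coeff_kummerPoly_mem_Ks (hζ : orderOf ζ = l) (y : LaurentSeries L) (n : ℕ) :
    (kummerPoly ζ l y).coeff n ∈ Ks (L := L) l := by
  rw [mem_Ks_iff hζ]
  exact rescaleU_coeff_kummerPoly (by rw [← hζ, pow_orderOf_eq_one]) y n

theorem exists_kummerPolyK (hζ : orderOf ζ = l) (y : LaurentSeries L) :
    ∃ P : (Ks (L := L) l)[X], P.map (Ks (L := L) l).subtype = kummerPoly ζ l y ∧
      P.degree = (kummerPoly ζ l y).degree ∧ P.Monic := by
  refine lifts_and_degree_eq_and_monic ?_ (monic_kummerPoly ζ l y)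
  rw [lifts_iff_coeff_lifts]
  intro n
  exact ⟨⟨_, coeff_kummerPoly_mem_Ks hζ y n⟩, rfl⟩

/-- the Kummer polynomial, with coefficients in `L((q^l))` -/
def kummerPolyK (hζ : orderOf ζ = l) (y : LaurentSeries L) : (Ks (L := L) l)[X] :=
  (exists_kummerPolyK hζ y).choose

theorem map_kummerPolyK (hζ : orderOf ζ = l) (y : LaurentSeries L) :
    (kummerPolyK hζ y).map (Ks (L := L) l).subtype = kummerPoly ζ l y :=
  (exists_kummerPolyK hζ y).choose_spec.1

theorem map_algebraMap_kummerPolyK (hζ : orderOf ζ = l) (y : LaurentSeries L) :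
    (kummerPolyK hζ y).map (algebraMap (Ks (L := L) l) (LaurentSeries L)) = kummerPoly ζ l y :=
  map_kummerPolyK hζ y

theorem monic_kummerPolyK (hζ : orderOf ζ = l) (y : LaurentSeries L) :
    (kummerPolyK hζ y).Monic :=
  (exists_kummerPolyK hζ y).choose_spec.2.2

theorem natDegree_kummerPolyK (hζ : orderOf ζ = l) (y : LaurentSeries L) :
    (kummerPolyK hζ y).natDegree = l := by
  have h := (exists_kummerPolyK hζ y).choose_spec.2.1
  exact (natDegree_eq_natDegree h).trans (natDegree_kummerPoly ζ l y)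

theorem aeval_kummerPolyK (hζ : orderOf ζ = l) (y : LaurentSeries L) :
    aeval y (kummerPolyK hζ y) = 0 := by
  rw [aeval_def, eval₂_eq_eval_map, map_algebraMap_kummerPolyK,
    eval_kummerPoly_self ζ (NeZero.ne l)]

/-- **`P_y` is the minimal polynomial over `L((q^l))` of every `y ∉ L((q^l))`** (`l` prime). -/
theorem minpoly_eq_kummerPolyK (hζ : orderOf ζ = l) (hl : l.Prime) {y : LaurentSeries L}
    (hy : y ∉ Ks (L := L) l) : minpoly (Ks (L := L) l) y = kummerPolyK hζ y := by
  haveI := finiteDimensional_Ks (L := L) hζ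
  have hint : IsIntegral (Ks (L := L) l) y := Algebra.IsIntegral.isIntegral y
  have hdvd : minpoly (Ks (L := L) l) y ∣ kummerPolyK hζ y :=
    minpoly.dvd _ _ (aeval_kummerPolyK hζ y)
  have hdeg : (minpoly (Ks (L := L) l) y).natDegree ∣ l := by
    have h1 := Module.finrank_mul_finrank (Ks (L := L) l) (Ks (L := L) l)⟮y⟯ (LaurentSeries L)
    rw [finrank_Ks (L := L) hζ, IntermediateField.adjoin.finrank hint] at h1
    exact Dvd.intro _ h1
  rcases (Nat.dvd_prime hl).mp hdeg with h1 | h1
  · exfalso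
    apply hy
    obtain ⟨z, hz⟩ := (minpoly.natDegree_eq_one_iff).mp h1
    rw [← hz]
    exact z.2
  · refine (eq_of_monic_of_dvd_of_natDegree_le (minpoly.monic hint) (monic_kummerPolyK hζ y)
      hdvd ?_).symm
    rw [natDegree_kummerPolyK, h1]

end KummerPolyK

end Fermat.Agent.S37.ES.Kummer
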