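import Mathlib
import Fermat.Agent.S37.ES.HeckeRho
import Fermat.Agent.S37.ES.NormRed

/-!
# PROJECT I (S37), slice I-2N (3): the norm congruence, unconditional

`ES/NormAlpha` + `ES/NormRed` with the hypothesis `HasRho N ℓ` discharged by
`ES/HeckeRho.exists_rho` (Kummer splitting + root selection).
-/

set_option autoImplicit false
set_option linter.unusedSectionVars false

noncomputable section

namespace Fermat.Agent.S37.ES.NormCongruence

open ModularCurve HahnSeries AlgebraicCurve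
open Fermat.Agent.S28.LaurentRescale Fermat.Agent.S18.GaussFromH
open Fermat.Agent.S37.ES.NormAlpha Fermat.Agent.S37.ES.NormRed
open Fermat.Agent.S37.Equivariance.CoeffAut

local notation "Kb" => AlgebraicClosure ℚ

variable {N ℓ : ℕ} [NeZero N] [NeZero ℓ]

/-- The second embedding exists (`ES/HeckeRho`). -/
theorem hasRho (hℓ : ℓ.Prime) (hℓN : ¬ ℓ ∣ N) : HasRho N ℓ :=
  hasRho_of_algHom N ℓ (Fermat.Agent.S37.ES.HeckeRho.exists_rho hℓ hℓN)

/-- **The norm along `α` of `β u`** over `ℚ̄`: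
`(N_{E/αF} (β u))(q^ℓ) = u(q^(ℓ^2)) * ∏_{b < ℓ} u(ζ^b q)`. -/
theorem qExpand_normBeta (hℓ : ℓ.Prime) (hℓN : ¬ ℓ ∣ N) {ζ : Kbˣ} (hζ : IsPrimitiveRoot ζ ℓ)
    (u : ↥(laurentBaseChange Kb (modularFunctionFieldFull N))) :
    qExpand Kb ℓ ((normBeta N ℓ u : ↥(laurentBaseChange Kb (modularFunctionFieldFull N))) :
        LaurentSeries Kb) =
      qExpand Kb ℓ (qExpand Kb ℓ (u : LaurentSeries Kb)) *
        ∏ b ∈ Finset.range ℓ, rescaleU (ζ ^ b) (u : LaurentSeries Kb) :=
  qExpand_norm_beta hℓ hℓN (hasRho hℓ hℓN) hζ u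

variable (A : ValuationSubring Kb) {k : Type*} [Field k] (π : ↥A →+* k)

/-- `NormRed.norm_beta_rep`, unconditional. -/
theorem normBeta_rep [hℓF : Fact ℓ.Prime] (hℓN : ¬ ℓ ∣ N) [CharP k ℓ] [PerfectField k]
    {f : ↥(laurentBaseChange Kb (modularFunctionFieldFull N))} {c : Kb}
    {a b : ↥(intRing A π N)}
    (h : f * toFL A π N b =
      algebraMap Kb ↥(laurentBaseChange Kb (modularFunctionFieldFull N)) c * toFL A π N a) :
    ∃ a' b' : ↥(intRing A π N),
      normBeta N ℓ f * toFL A π N b' =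
          algebraMap Kb ↥(laurentBaseChange Kb (modularFunctionFieldFull N)) (c ^ (ℓ + 1)) *
            toFL A π N a' ∧
      red A π N a' = Vk N ℓ k (red A π N a) * coeffRingAut k N (frobAut k ℓ) (red A π N a) ∧
      red A π N b' = Vk N ℓ k (red A π N b) * coeffRingAut k N (frobAut k ℓ) (red A π N b) :=
  norm_beta_rep A π hℓN (hasRho hℓF.out hℓN) h

/-- **The norm congruence** (Eichler–Shimura on functions), unconditional: for a Gauss unit `u`,
`N_{E/αF} (β u)` is a Gauss unit and its reduction is `Frob (ū) * (Frob⁻¹ ū)^ℓ`. -/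
theorem redV_normBeta [hℓF : Fact ℓ.Prime] (hℓN : ¬ ℓ ∣ N) [CharP k ℓ] [PerfectField k]
    (hrep : HasRep A π N) (u : ↥(OwV A π N hrep)) (hu : redV A π N hrep u ≠ 0) :
    ∃ hmem : normBeta N ℓ (u : ↥(laurentBaseChange Kb (modularFunctionFieldFull N)))
        ∈ OwV A π N hrep,
      redV A π N hrep
          ⟨normBeta N ℓ (u : ↥(laurentBaseChange Kb (modularFunctionFieldFull N))), hmem⟩ =
        coeffRingAut k N (frobAut k ℓ) (redV A π N hrep u) *
          (coeffRingAut k N (frobAut k ℓ).symm (redV A π N hrep u)) ^ ℓ :=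
  redV_norm_beta A π hℓN (hasRho hℓF.out hℓN) hrep u hu

end Fermat.Agent.S37.ES.NormCongruence
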